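/-
P3-G, block (G-A) (helper20): **the Kummer dévissage on top of the nodal `no_split_cover`**.

Setting of `P3G/Cover/Main.lean` (helper18): `O` a DVR with uniformiser `π`, `K₀ = Frac O` of
characteristic zero, `F₀` finite over `K₀(j)`, the two charts `R± = chartAlg O F₀ {j^{±1}}`, and TWO
valuation subrings `V₁ V₂` of `F₀` (the Gauss valuations of the two vertical components), both with
uniformiser `π`, `W = V₁ ∩ V₂` a semilocal Gauss ring for both charts.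

`h ∈ F₀` with `h ≡ 1` modulo `π W` (a second difference) which has, at every closed point `𝔫` of
the special fibre, a local `p ^ (n + 1)`-th root `τ` (`h / τ ^ (p ^ (n + 1))` a unit at `𝔫`) with
`τ ≡ 1` modulo `π W`.  Then every `k` with `k ^ (p ^ n) = h` is a `p`-th power:
`no_split_cover_pow` derives `False` from the irreducibility of `X ^ p - k`.

The point: the residues of `k` on the two components are `p ^ n`-th roots of unity `ξ₁, ξ₂`.  If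
`ξ₁ = ξ₂` we normalise by a constant and apply `no_split_cover_of_strong`.  If `ξ₁ ≠ ξ₂` then no
closed point lies on both components (a unit at such a point has the same residue on both
branches), the two components are disjoint in both charts, and the weak form of `no_split_cover`
applies with a non-constant `g`.  (The second case does not occur geometrically; treating it
formally avoids having to prove that the fibre is connected.)
-/
import Mathlib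
import Fermat.Agent.P3G.Cover.Main

set_option autoImplicit false
set_option linter.unusedSectionVars false
set_option linter.style.haveILetI false
set_option linter.unusedVariables false

open Polynomial IntermediateField

namespace Fermat.Agent.P3G.Assembly.PowCover

open Fermat.Agent.N4.Chart Fermat.Agent.P3G.Cover.Lift
open Fermat.Agent.N4.Cover.Main (isFractionRing_chartAlg isIntegrallyClosed_chartAlg)

/-! ### Roots of unity -/

section Roots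

variable {O : Type*} [CommRing O] [IsDomain O]

/-- Two distinct `N`-th roots of unity differ by a unit if `N` is a unit. -/
theorem isUnit_sub_of_pow_eq_one {N : ℕ} (hN : IsUnit ((N : ℕ) : O)) {a b : O}
    (ha : a ^ N = 1) (hb : b ^ N = 1) (hab : a ≠ b) : IsUnit (a - b) := by
  have hN0 : N ≠ 0 := by
    rintro rfl
    rw [Nat.cast_zero] at hN
    exact not_isUnit_zero hN
  have hS : (∑ i ∈ Finset.range N, a ^ i * b ^ (N - 1 - i)) * (a - b) = a ^ N - b ^ N :=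
    (Commute.all a b).geom_sum₂_mul N
  rw [ha, hb, sub_self] at hS
  have hS0 : ∑ i ∈ Finset.range N, a ^ i * b ^ (N - 1 - i) = 0 := by
    rcases mul_eq_zero.mp hS with h | h
    · exact h
    · exact absurd (sub_eq_zero.mp h) hab
  have hdvd : (a - b) ∣ ∑ i ∈ Finset.range N, (a ^ i - b ^ i) * b ^ (N - 1 - i) :=
    Finset.dvd_sum fun i _ => Dvd.dvd.mul_right (sub_dvd_pow_sub_pow a b i) _
  have hconst : ∑ i ∈ Finset.range N, b ^ i * b ^ (N - 1 - i) = (N : O) * b ^ (N - 1) := by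
    rw [Finset.sum_congr rfl (g := fun _ => b ^ (N - 1)), Finset.sum_const, Finset.card_range,
      nsmul_eq_mul]
    intro i hi
    rw [← pow_add]
    congr 1
    have := Finset.mem_range.mp hi
    omega
  have hsum : ∑ i ∈ Finset.range N, (a ^ i - b ^ i) * b ^ (N - 1 - i) =
      -((N : O) * b ^ (N - 1)) := by
    simp only [sub_mul, Finset.sum_sub_distrib, hS0, hconst, zero_sub]
  rw [hsum, dvd_neg] at hdvd
  have hbunit : IsUnit (b ^ (N - 1)) := by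
    refine IsUnit.of_mul_eq_one b ?_
    rw [← pow_succ, Nat.sub_add_cancel (Nat.one_le_iff_ne_zero.mpr hN0), hb]
  exact isUnit_of_dvd_unit hdvd (hN.mul hbunit)

end Roots

/-! ### Valuation subrings -/

section Val

variable {F : Type*} [Field F] (A : ValuationSubring F)

theorem nu_add {x y : F} (hx : x ∈ A.nonunits) (hy : y ∈ A.nonunits) : x + y ∈ A.nonunits := by
  rw [A.mem_nonunits_iff] at hx hy ⊢
  exact Valuation.map_add_lt _ hx hy

theorem nu_neg {x : F} (hx : x ∈ A.nonunits) : -x ∈ A.nonunits := by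
  rw [A.mem_nonunits_iff] at hx ⊢
  rwa [Valuation.map_neg]

theorem nu_sub {x y : F} (hx : x ∈ A.nonunits) (hy : y ∈ A.nonunits) : x - y ∈ A.nonunits := by
  rw [sub_eq_add_neg]
  exact nu_add A hx (nu_neg A hy)

theorem nu_mul {x y : F} (hx : x ∈ A) (hy : y ∈ A.nonunits) : x * y ∈ A.nonunits := by
  rw [A.mem_nonunits_iff] at hy ⊢
  rw [map_mul, mul_comm]
  exact mul_lt_one_of_lt_of_le hy ((A.valuation_le_one_iff x).2 hx)

theorem nu_mul' {x y : F} (hx : x ∈ A.nonunits) (hy : y ∈ A) : x * y ∈ A.nonunits := by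
  rw [mul_comm]
  exact nu_mul A hy hx

theorem nu_mem {x : F} (hx : x ∈ A.nonunits) : x ∈ A := by
  rw [A.mem_nonunits_iff] at hx
  exact (A.valuation_le_one_iff x).1 hx.le

theorem nu_zero : (0 : F) ∈ A.nonunits := by
  rw [A.mem_nonunits_iff, map_zero]
  exact zero_lt_one

/-- The valuation of a unit. -/
theorem val_eq_one {u : F} (hu0 : u ≠ 0) (hu : u ∈ A) (hui : u⁻¹ ∈ A) : A.valuation u = 1 := by
  have h1 := (A.valuation_le_one_iff u).2 hu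
  have h2 := (A.valuation_le_one_iff u⁻¹).2 hui
  rw [map_inv₀] at h2
  have h0 : A.valuation u ≠ 0 := fun h0 => hu0 ((map_eq_zero _).1 h0)
  exact le_antisymm h1 ((inv_le_one₀ (zero_lt_iff.2 h0)).1 h2)

/-- An element congruent to a unit is a unit. -/
theorem mem_and_inv_mem_of_sub {x u : F} (hu0 : u ≠ 0) (hu : u ∈ A) (hui : u⁻¹ ∈ A)
    (h : x - u ∈ A.nonunits) : x ≠ 0 ∧ x ∈ A ∧ x⁻¹ ∈ A := by
  have hv : A.valuation x = 1 := by
    have h1 : A.valuation (x - u) < A.valuation u := by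
      rw [val_eq_one A hu0 hu hui]
      exact (A.mem_nonunits_iff).1 h
    have h2 := Valuation.map_add_eq_of_lt_left A.valuation h1
    rw [add_sub_cancel, val_eq_one A hu0 hu hui] at h2
    exact h2
  refine ⟨fun h0 => ?_, (A.valuation_le_one_iff x).1 hv.le, (A.valuation_le_one_iff _).1 ?_⟩
  · rw [h0, map_zero] at hv
    exact zero_ne_one hv
  · rw [map_inv₀, hv, inv_one]

/-- Congruent units have congruent inverses. -/
theorem inv_sub_inv_mem {x y : F} (hx0 : x ≠ 0) (hy0 : y ≠ 0) (hxi : x⁻¹ ∈ A) (hyi : y⁻¹ ∈ A)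
    (h : x - y ∈ A.nonunits) : x⁻¹ - y⁻¹ ∈ A.nonunits := by
  have : x⁻¹ - y⁻¹ = -((x - y) * (x⁻¹ * y⁻¹)) := by field_simp; ring
  rw [this]
  exact nu_neg A (nu_mul' A h (A.mul_mem _ _ hxi hyi))

/-- Congruent elements have congruent powers. -/
theorem pow_sub_pow_mem {x y : F} (hx : x ∈ A) (hy : y ∈ A) (h : x - y ∈ A.nonunits) (m : ℕ) :
    x ^ m - y ^ m ∈ A.nonunits := by
  obtain ⟨c, hc⟩ := sub_dvd_pow_sub_pow (⟨x, hx⟩ : A) ⟨y, hy⟩ m
  have hc' : x ^ m - y ^ m = (x - y) * (c : F) := by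
    have := congrArg (fun z : A => (z : F)) hc
    simpa using this
  rw [hc']
  exact nu_mul' A h c.2

/-- If `k x = τ ^ p y` with `τ ≡ 1` and `k ≡ ξ` then `y ≡ ξ x`. -/
theorem sub_mem_nonunits_of_root {k τ x y ξ : F} {p : ℕ} (hτ : τ - 1 ∈ A.nonunits) (hx : x ∈ A)
    (hξ : ξ ∈ A) (hk : k - ξ ∈ A.nonunits) (h : k * x = τ ^ p * y) : y - ξ * x ∈ A.nonunits := by
  have h1A : (1 : F) ∈ A := A.one_mem
  have h1iA : (1 : F)⁻¹ ∈ A := by rw [inv_one]; exact A.one_mem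
  obtain ⟨hτ0, hτA, hτiA⟩ := mem_and_inv_mem_of_sub A one_ne_zero h1A h1iA hτ
  have h2 : τ ^ p - 1 ∈ A.nonunits := by
    have := pow_sub_pow_mem A hτA h1A hτ p
    rwa [one_pow] at this
  have h3 : y - ξ * x = (τ⁻¹) ^ p * (x * (k - ξ) - ξ * x * (τ ^ p - 1)) := by
    have h4 : (τ⁻¹) ^ p * τ ^ p = 1 := by rw [← mul_pow, inv_mul_cancel₀ hτ0, one_pow]
    have h5 : x * (k - ξ) - ξ * x * (τ ^ p - 1) = τ ^ p * (y - ξ * x) := by
      linear_combination h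
    rw [h5, ← mul_assoc, h4, one_mul]
  rw [h3]
  exact nu_mul A (pow_mem hτiA p)
    (nu_sub A (nu_mul A hx hk) (nu_mul A (A.mul_mem _ _ hξ hx) h2))

/-- **Second differences are `≡ 1`.**  If the automorphism `σ` preserves the valuation (`σ f / f` is
a unit of `A` for every `f ≠ 0`) and acts trivially on the residue field, then
`σ²f · f / (σ f)² ≡ 1` modulo the maximal ideal, for every `f ≠ 0`. -/
theorem secondDiff_sub_one_mem (σ : F ≃+* F) (hunit : ∀ f : F, f ≠ 0 → σ f / f ∈ A)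
    (hres : ∀ x ∈ A, σ x - x ∈ A.nonunits) {f : F} (hf : f ≠ 0) :
    σ (σ f) * f / (σ f) ^ 2 - 1 ∈ A.nonunits := by
  have hσf : σ f ≠ 0 := (map_ne_zero_iff σ σ.injective).mpr hf
  have hσσf : σ (σ f) ≠ 0 := (map_ne_zero_iff σ σ.injective).mpr hσf
  have hg : σ f / f ∈ A := hunit f hf
  have hgi : f / σ f ∈ A := by
    have := hunit f⁻¹ (inv_ne_zero hf)
    rwa [map_inv₀, inv_div_inv] at this
  have h1 : σ (σ f) * f / (σ f) ^ 2 - 1 = (σ (σ f / f) - σ f / f) * (f / σ f) := by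
    rw [map_div₀]
    field_simp
  rw [h1]
  exact nu_mul' A (hres _ hg) hgi

/-- The hypothesis `hunit` of `secondDiff_sub_one_mem` for a discrete valuation ring with uniformiser
`ϖ` such that `σ ϖ / ϖ` is a unit. -/
theorem smul_div_mem_of_uniformiser (σ : F ≃+* F) (hσA : ∀ x : F, x ∈ A → σ x ∈ A) {ϖ : F}
    (hϖ0 : ϖ ≠ 0) (hϖ : σ ϖ / ϖ ∈ A) (hϖi : ϖ / σ ϖ ∈ A)
    (hdisc : ∀ f : F, f ≠ 0 → ∃ a : ℤ, f * ϖ ^ a ∈ A ∧ (f * ϖ ^ a)⁻¹ ∈ A) :
    ∀ f : F, f ≠ 0 → σ f / f ∈ A := by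
  intro f hf
  obtain ⟨a, hu, hui⟩ := hdisc f hf
  have hσϖ : σ ϖ ≠ 0 := (map_ne_zero_iff σ σ.injective).mpr hϖ0
  have hσf : σ f ≠ 0 := (map_ne_zero_iff σ σ.injective).mpr hf
  have hpow : (ϖ / σ ϖ) ^ a ∈ A := by
    rcases Int.le_total 0 a with h0 | h0
    · obtain ⟨m, rfl⟩ := Int.eq_ofNat_of_zero_le h0
      rw [zpow_natCast]
      exact pow_mem hϖi m
    · obtain ⟨m, hm⟩ := Int.eq_ofNat_of_zero_le (neg_nonneg.mpr h0)
      have : a = -(m : ℤ) := by omega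
      rw [this, zpow_neg, zpow_natCast, ← inv_pow, inv_div]
      exact pow_mem hϖ m
  have h1 : σ f / f = σ (f * ϖ ^ a) * (f * ϖ ^ a)⁻¹ * (ϖ / σ ϖ) ^ a := by
    rw [map_mul, map_zpow₀, div_zpow, mul_inv]
    have h2 : ϖ ^ a ≠ 0 := zpow_ne_zero a hϖ0
    have h3 : σ ϖ ^ a ≠ 0 := zpow_ne_zero a hσϖ
    field_simp
  rw [h1]
  exact A.mul_mem _ _ (A.mul_mem _ _ (hσA _ hu) hui) hpow

/-- If `k ^ N ≡ 1` then `k` is congruent to an `N`-th root of unity. -/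
theorem exists_pow_sub_mem {N : ℕ} (hN : 0 < N) {ζ : F} (hζ : IsPrimitiveRoot ζ N) (hζA : ζ ∈ A)
    {k : F} (hk : k ∈ A) (h : k ^ N - 1 ∈ A.nonunits) : ∃ m < N, k - ζ ^ m ∈ A.nonunits := by
  by_contra hcon
  push Not at hcon
  have h1 : ∀ m < N, A.valuation (k - ζ ^ m) = 1 := by
    intro m hm
    have h2 : k - ζ ^ m ∈ A := sub_mem hk (pow_mem hζA m)
    have h3 := (A.valuation_le_one_iff _).2 h2
    have h4 := hcon m hm
    rw [A.mem_nonunits_iff, not_lt] at h4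
    exact le_antisymm h3 h4
  have h5 := X_pow_sub_C_eq_prod hζ hN (one_pow N)
  have h6 := congrArg (Polynomial.eval k) h5
  rw [eval_sub, eval_pow, eval_X, eval_C, eval_prod] at h6
  rw [h6, A.mem_nonunits_iff, map_prod, Finset.prod_eq_one] at h
  · exact lt_irrefl _ h
  · intro m hm
    rw [eval_sub, eval_X, eval_C, mul_one]
    exact h1 m (Finset.mem_range.mp hm)

end Val

/-! ### Extracting roots at a prime of an integrally closed domain -/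

section IntClosed

variable {R F : Type*} [CommRing R] [Field F] [Algebra R F] [IsFractionRing R F]
  [IsIntegrallyClosed R]

/-- If `k ^ N / θ ^ N` is a unit at the prime `𝔫` then so is `k / θ`. -/
theorem exists_unit_of_pow (𝔫 : Ideal R) [𝔫.IsPrime] {N : ℕ} (hN : N ≠ 0) {k θ : F} (hθ : θ ≠ 0)
    {a r : R} (ha : a ∉ 𝔫) (hr : r ∉ 𝔫)
    (h : k ^ N * algebraMap R F a = θ ^ N * algebraMap R F r) :
    ∃ r' : R, r' ∉ 𝔫 ∧ k * algebraMap R F a = θ * algebraMap R F r' := by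
  have hx : (k * algebraMap R F a / θ) ^ N = algebraMap R F (a ^ (N - 1) * r) := by
    have h1 : (algebraMap R F a) ^ N = algebraMap R F a ^ (N - 1) * algebraMap R F a := by
      rw [← pow_succ, Nat.sub_add_cancel (Nat.one_le_iff_ne_zero.mpr hN)]
    rw [div_pow, mul_pow, h1, map_mul, map_pow, div_eq_iff (pow_ne_zero N hθ)]
    linear_combination (algebraMap R F a) ^ (N - 1) * h
  have hint : IsIntegral R (k * algebraMap R F a / θ) := by
    refine ⟨X ^ N - C (a ^ (N - 1) * r), monic_X_pow_sub_C _ hN, ?_⟩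
    rw [eval₂_sub, eval₂_pow, eval₂_X, eval₂_C, hx, sub_self]
  obtain ⟨r', hr'⟩ := IsIntegrallyClosed.algebraMap_eq_of_integral hint
  refine ⟨r', fun hmem => ?_, ?_⟩
  · have h2 : r' ^ N = a ^ (N - 1) * r := by
      apply IsFractionRing.injective R F
      rw [map_pow, hr', hx]
    have h3 : a ^ (N - 1) * r ∈ 𝔫 := h2 ▸ Ideal.pow_mem_of_mem 𝔫 hmem N (Nat.pos_of_ne_zero hN)
    rcases Ideal.IsPrime.mem_or_mem ‹_› h3 with h4 | h4
    · exact ha (Ideal.IsPrime.mem_of_pow_mem ‹_› _ h4)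
    · exact hr h4
  · rw [hr']
    field_simp

end IntClosed

/-! ### Two vertical valuations -/

universe u

section TwoValuations

variable {O : Type*} [CommRing O] {F₀ : Type u} [Field F₀] [Algebra O F₀]

/-- `W = V₁ ∩ V₂`, and `π` is a uniformiser of both valuation rings. -/
structure TwoVal (π : O) (W : Subring F₀) (V₁ V₂ : ValuationSubring F₀) : Prop where
  mem_iff : ∀ x : F₀, x ∈ W ↔ x ∈ V₁ ∧ x ∈ V₂
  pi_mem₁ : algebraMap O F₀ π ∈ V₁.nonunits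
  pi_mem₂ : algebraMap O F₀ π ∈ V₂.nonunits
  unif₁ : ∀ x ∈ V₁.nonunits, x * (algebraMap O F₀ π)⁻¹ ∈ V₁
  unif₂ : ∀ x ∈ V₂.nonunits, x * (algebraMap O F₀ π)⁻¹ ∈ V₂
  pi_ne : algebraMap O F₀ π ≠ 0

variable {π : O} {W : Subring F₀} {V₁ V₂ : ValuationSubring F₀}

theorem TwoVal.symm (hT : TwoVal π W V₁ V₂) : TwoVal π W V₂ V₁ :=
  ⟨fun x => (hT.mem_iff x).trans and_comm, hT.pi_mem₂, hT.pi_mem₁, hT.unif₂, hT.unif₁, hT.pi_ne⟩

theorem TwoVal.mem₁ (hT : TwoVal π W V₁ V₂) {x : F₀} (hx : x ∈ W) : x ∈ V₁ :=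
  ((hT.mem_iff x).1 hx).1

theorem TwoVal.mem₂ (hT : TwoVal π W V₁ V₂) {x : F₀} (hx : x ∈ W) : x ∈ V₂ :=
  ((hT.mem_iff x).1 hx).2

/-- `𝔪₁ ∩ 𝔪₂ = π W`. -/
theorem TwoVal.exists_eq_mul (hT : TwoVal π W V₁ V₂) {x : F₀} (h₁ : x ∈ V₁.nonunits)
    (h₂ : x ∈ V₂.nonunits) : ∃ w ∈ W, x = algebraMap O F₀ π * w := by
  refine ⟨x * (algebraMap O F₀ π)⁻¹, (hT.mem_iff _).2 ⟨hT.unif₁ x h₁, hT.unif₂ x h₂⟩, ?_⟩
  rw [mul_comm x, ← mul_assoc, mul_inv_cancel₀ hT.pi_ne, one_mul]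

theorem TwoVal.mem_nonunits₁ (hT : TwoVal π W V₁ V₂) {x : F₀}
    (h : ∃ w ∈ W, x = algebraMap O F₀ π * w) : x ∈ V₁.nonunits := by
  obtain ⟨w, hw, rfl⟩ := h
  exact nu_mul' V₁ hT.pi_mem₁ (hT.mem₁ hw)

theorem TwoVal.mem_nonunits₂ (hT : TwoVal π W V₁ V₂) {x : F₀}
    (h : ∃ w ∈ W, x = algebraMap O F₀ π * w) : x ∈ V₂.nonunits :=
  hT.symm.mem_nonunits₁ h

end TwoValuations

/-! ### One chart -/

section Chart

variable {O K₀ : Type*} [CommRing O] [IsDomain O] [IsDiscreteValuationRing O]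
  [Field K₀] [CharZero K₀] [Algebra O K₀] [IsFractionRing O K₀]
variable {F₀ : Type u} [Field F₀] [Algebra K₀ F₀] [Algebra O F₀] [IsScalarTower O K₀ F₀]

/-- **Local roots**: at every closed point `𝔫` of the special fibre of the chart `R = chartAlg O F₀ {s}`
there is `τ ≡ 1` modulo `π W` with `h / τ ^ e` a unit at `𝔫`. -/
def LocalRoots (π : O) (W : Subring F₀) (s : F₀) (h : F₀) (e : ℕ) : Prop :=
  ∀ 𝔫 : Ideal (chartAlg O F₀ {s}), 𝔫.IsMaximal → algebraMap O (chartAlg O F₀ {s}) π ∈ 𝔫 →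
    ∃ τ : F₀, τ ≠ 0 ∧
      (∃ a r : chartAlg O F₀ {s}, a ∉ 𝔫 ∧ r ∉ 𝔫 ∧
        h * algebraMap (chartAlg O F₀ {s}) F₀ a = τ ^ e * algebraMap (chartAlg O F₀ {s}) F₀ r) ∧
      ∃ w ∈ W, τ - 1 = algebraMap O F₀ π * w

/-- The centre of a valuation ring on a chart. -/
def centre (s : F₀) (V : ValuationSubring F₀) (hV : ∀ r : chartAlg O F₀ {s}, (r : F₀) ∈ V) :
    Ideal (chartAlg O F₀ {s}) where
  carrier := {x | (x : F₀) ∈ V.nonunits}
  add_mem' := fun {x y} hx hy => nu_add V hx hy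
  zero_mem' := nu_zero V
  smul_mem' := fun c x hx => nu_mul V (hV c) hx

theorem mem_centre {s : F₀} {V : ValuationSubring F₀}
    {hV : ∀ r : chartAlg O F₀ {s}, (r : F₀) ∈ V} {x : chartAlg O F₀ {s}} :
    x ∈ centre s V hV ↔ (x : F₀) ∈ V.nonunits := Iff.rfl

/-- Local roots of `h = k ^ (p ^ n)` of exponent `p ^ (n + 1)` give local roots of `k` of exponent
`p`. -/
theorem localRoots_pow (s : F₀) (hs : Transcendental K₀ s) [FiniteDimensional K₀⟮s⟯ F₀] {π : O}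
    {W : Subring F₀} {h k : F₀} {p n : ℕ} (hp : p ≠ 0) (hk : k ^ (p ^ n) = h)
    (hloc : LocalRoots π W s h (p ^ (n + 1))) : LocalRoots π W s k p := by
  haveI : IsFractionRing (chartAlg O F₀ {s}) F₀ := isFractionRing_chartAlg (O := O) (K₀ := K₀) s hs
  haveI : IsIntegrallyClosed (chartAlg O F₀ {s}) :=
    isIntegrallyClosed_chartAlg (O := O) (K₀ := K₀) s hs
  intro 𝔫 h𝔫 hπ𝔫
  obtain ⟨τ, hτ0, ⟨a, r, ha, hr, har⟩, hτ1⟩ := hloc 𝔫 h𝔫 hπ𝔫
  haveI := h𝔫.isPrime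
  have h1 : k ^ (p ^ n) * algebraMap (chartAlg O F₀ {s}) F₀ a =
      (τ ^ p) ^ (p ^ n) * algebraMap (chartAlg O F₀ {s}) F₀ r := by
    rw [hk, ← pow_mul, mul_comm p, ← pow_succ]
    exact har
  obtain ⟨r', hr', hkr'⟩ := exists_unit_of_pow 𝔫 (pow_ne_zero n hp) (pow_ne_zero p hτ0) ha hr h1
  exact ⟨τ, hτ0, ⟨a, r', ha, hr', hkr'⟩, hτ1⟩

/-- Local roots `τ ≡ 1` rescaled by a constant unit `c`: the strong local hypothesis of
`no_split_cover_of_strong` for `g = c`. -/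
theorem strong_of_localRoots {s : F₀} {π : O} {W : Subring F₀}
    (hW : IsSemiGaussRing W (algebraMap O (chartAlg O F₀ {s}) π)) {k : F₀} {p : ℕ}
    (c c' : O) (hc : c * c' = 1) (hloc : LocalRoots π W s k p) :
    ∀ 𝔫 : Ideal (chartAlg O F₀ {s}), 𝔫.IsMaximal →
      algebraMap O (chartAlg O F₀ {s}) π ∈ 𝔫 → ∃ η : F₀, η ≠ 0 ∧
      (∃ a r : chartAlg O F₀ {s}, a ∉ 𝔫 ∧ r ∉ 𝔫 ∧
        k * algebraMap (chartAlg O F₀ {s}) F₀ a = η ^ p * algebraMap (chartAlg O F₀ {s}) F₀ r) ∧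
      ∃ w ∈ W, η - algebraMap O F₀ c = algebraMap O F₀ π * w := by
  intro 𝔫 h𝔫 hπ𝔫
  obtain ⟨τ, hτ0, ⟨a, r, ha, hr, har⟩, w, hw, hτ1⟩ := hloc 𝔫 h𝔫 hπ𝔫
  have hcF : algebraMap O F₀ c * algebraMap O F₀ c' = 1 := by rw [← map_mul, hc, map_one]
  have hc0 : algebraMap O F₀ c ≠ 0 := left_ne_zero_of_mul_eq_one hcF
  refine ⟨algebraMap O F₀ c * τ, mul_ne_zero hc0 hτ0,
    ⟨a, algebraMap O (chartAlg O F₀ {s}) (c' ^ p) * r, ha, fun hmem => hr ?_, ?_⟩,
    algebraMap O F₀ c * w, W.mul_mem (hW.le (algebraMap O _ c)) hw, ?_⟩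
  · have h1 : algebraMap O (chartAlg O F₀ {s}) (c ^ p) *
        (algebraMap O (chartAlg O F₀ {s}) (c' ^ p) * r) = r := by
      rw [← mul_assoc, ← map_mul, ← mul_pow, hc, one_pow, map_one, one_mul]
    rw [← h1]
    exact Ideal.mul_mem_left _ _ hmem
  · have h2 : algebraMap (chartAlg O F₀ {s}) F₀ (algebraMap O (chartAlg O F₀ {s}) (c' ^ p) * r) =
        (algebraMap O F₀ c') ^ p * algebraMap (chartAlg O F₀ {s}) F₀ r := by
      rw [map_mul, ← map_pow]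
      rfl
    rw [h2, mul_pow, har]
    have h3 : (algebraMap O F₀ c) ^ p * (algebraMap O F₀ c') ^ p = 1 := by
      rw [← mul_pow, hcF, one_pow]
    linear_combination (-(τ ^ p * algebraMap (chartAlg O F₀ {s}) F₀ r)) * h3
  · linear_combination (algebraMap O F₀ c) * hτ1

/-- Rescaling a local root by a constant unit. -/
theorem rescale_root {s : F₀} (𝔫 : Ideal (chartAlg O F₀ {s})) (c c' : O) (hc : c * c' = 1)
    {k τ : F₀} {p : ℕ} {a r : chartAlg O F₀ {s}} (hr : r ∉ 𝔫)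
    (har : k * algebraMap (chartAlg O F₀ {s}) F₀ a = τ ^ p * algebraMap (chartAlg O F₀ {s}) F₀ r) :
    ∃ r' : chartAlg O F₀ {s}, r' ∉ 𝔫 ∧ k * algebraMap (chartAlg O F₀ {s}) F₀ a =
      (algebraMap O F₀ c * τ) ^ p * algebraMap (chartAlg O F₀ {s}) F₀ r' := by
  have hcF : algebraMap O F₀ c * algebraMap O F₀ c' = 1 := by rw [← map_mul, hc, map_one]
  refine ⟨algebraMap O (chartAlg O F₀ {s}) (c' ^ p) * r, fun hmem => hr ?_, ?_⟩
  · have h1 : algebraMap O (chartAlg O F₀ {s}) (c ^ p) *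
        (algebraMap O (chartAlg O F₀ {s}) (c' ^ p) * r) = r := by
      rw [← mul_assoc, ← map_mul, ← mul_pow, hc, one_pow, map_one, one_mul]
    rw [← h1]
    exact Ideal.mul_mem_left _ _ hmem
  · have h2 : algebraMap (chartAlg O F₀ {s}) F₀ (algebraMap O (chartAlg O F₀ {s}) (c' ^ p) * r) =
        (algebraMap O F₀ c') ^ p * algebraMap (chartAlg O F₀ {s}) F₀ r := by
      rw [map_mul, ← map_pow]
      rfl
    rw [h2, mul_pow, har]
    have h3 : (algebraMap O F₀ c) ^ p * (algebraMap O F₀ c') ^ p = 1 := by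
      rw [← mul_pow, hcF, one_pow]
    linear_combination (-(τ ^ p * algebraMap (chartAlg O F₀ {s}) F₀ r)) * h3

/-- The weak local hypothesis of `no_split_cover` at a closed point `𝔫` which does not lie on the
component `V'` (`d ∉ 𝔫` vanishes on it), for `g ≡ c` on the component `V`. -/
theorem weak_of_root {s : F₀} {π : O} {W : Subring F₀} {V V' : ValuationSubring F₀}
    (hT : TwoVal π W V V') (hW : IsSemiGaussRing W (algebraMap O (chartAlg O F₀ {s}) π))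
    {k g : F₀} {p : ℕ} (c c' : O) (hc : c * c' = 1)
    (hg0 : g ≠ 0) (hgi : g⁻¹ ∈ W) (hgc : g - algebraMap O F₀ c ∈ V.nonunits)
    (𝔫 : Ideal (chartAlg O F₀ {s}))
    {d : chartAlg O F₀ {s}} (hd : d ∉ 𝔫) (hdV' : (d : F₀) ∈ V'.nonunits)
    {τ : F₀} (hτ0 : τ ≠ 0) {a r : chartAlg O F₀ {s}} (ha : a ∉ 𝔫) (hr : r ∉ 𝔫)
    (har : k * algebraMap (chartAlg O F₀ {s}) F₀ a = τ ^ p * algebraMap (chartAlg O F₀ {s}) F₀ r)
    (hτ1 : ∃ w ∈ W, τ - 1 = algebraMap O F₀ π * w) :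
    ∃ η : F₀, η ≠ 0 ∧
      (∃ a r : chartAlg O F₀ {s}, a ∉ 𝔫 ∧ r ∉ 𝔫 ∧
        k * algebraMap (chartAlg O F₀ {s}) F₀ a = η ^ p * algebraMap (chartAlg O F₀ {s}) F₀ r) ∧
      ∃ d : chartAlg O F₀ {s}, d ∉ 𝔫 ∧ ∀ m : ℕ, ∃ w ∈ W,
        algebraMap (chartAlg O F₀ {s}) F₀ d * ((η⁻¹) ^ m - (g⁻¹) ^ m) =
          algebraMap O F₀ π * w := by
  obtain ⟨r', hr', har'⟩ := rescale_root 𝔫 c c' hc hr har
  have hcF : algebraMap O F₀ c * algebraMap O F₀ c' = 1 := by rw [← map_mul, hc, map_one]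
  have hc0 : algebraMap O F₀ c ≠ 0 := left_ne_zero_of_mul_eq_one hcF
  have hη0 : algebraMap O F₀ c * τ ≠ 0 := mul_ne_zero hc0 hτ0
  refine ⟨algebraMap O F₀ c * τ, hη0, ⟨a, r', ha, hr', har'⟩, d, hd, fun m => ?_⟩
  obtain ⟨w, hw, hτw⟩ := hτ1
  have hcW : algebraMap O F₀ c ∈ W := hW.le (algebraMap O _ c)
  have hc'W : algebraMap O F₀ c' ∈ W := hW.le (algebraMap O _ c')
  have hτi : τ⁻¹ ∈ W := by
    have h1 := hW.rad w hw
    have h2 : (1 + algebraMap (chartAlg O F₀ {s}) F₀ (algebraMap O (chartAlg O F₀ {s}) π) * w) =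
        τ := by
      change 1 + algebraMap O F₀ π * w = τ
      linear_combination -hτw
    rwa [h2] at h1
  have hηi : (algebraMap O F₀ c * τ)⁻¹ ∈ W := by
    have h1 : (algebraMap O F₀ c * τ)⁻¹ = algebraMap O F₀ c' * τ⁻¹ := by
      rw [mul_inv, inv_eq_of_mul_eq_one_right hcF]
    rw [h1]
    exact W.mul_mem hc'W hτi
  have hdW : (d : F₀) ∈ W := hW.le d
  apply hT.exists_eq_mul
  · -- on `V`
    have h1 : τ - 1 ∈ V.nonunits := hT.mem_nonunits₁ ⟨w, hw, hτw⟩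
    have h2 : algebraMap O F₀ c * τ - g ∈ V.nonunits := by
      have : algebraMap O F₀ c * τ - g =
          algebraMap O F₀ c * (τ - 1) - (g - algebraMap O F₀ c) := by ring
      rw [this]
      exact nu_sub V (nu_mul V (hT.mem₁ hcW) h1) hgc
    have h3 := inv_sub_inv_mem V hη0 hg0 (hT.mem₁ hηi) (hT.mem₁ hgi) h2
    have h4 := pow_sub_pow_mem V (hT.mem₁ hηi) (hT.mem₁ hgi) h3 m
    exact nu_mul V (hT.mem₁ hdW) h4
  · -- on `V'`
    exact nu_mul' V' hdV' (sub_mem (pow_mem (hT.mem₂ hηi) m) (pow_mem (hT.mem₂ hgi) m))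

/-- **No closed point on both components** if the residues of `k` on the two components differ. -/
theorem not_le_both {s : F₀} {π : O} {W : Subring F₀} {V₁ V₂ : ValuationSubring F₀}
    (hT : TwoVal π W V₁ V₂) (hW : IsSemiGaussRing W (algebraMap O (chartAlg O F₀ {s}) π))
    {k : F₀} {p : ℕ} (ξ₁ ξ₂ : O) (hξ : IsUnit (ξ₁ - ξ₂))
    (hk₁ : k - algebraMap O F₀ ξ₁ ∈ V₁.nonunits) (hk₂ : k - algebraMap O F₀ ξ₂ ∈ V₂.nonunits)
    (hloc : LocalRoots π W s k p) (𝔫 : Ideal (chartAlg O F₀ {s})) (h𝔫 : 𝔫.IsMaximal)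
    (hπ𝔫 : algebraMap O (chartAlg O F₀ {s}) π ∈ 𝔫)
    (h₁ : centre s V₁ (fun r => hT.mem₁ (hW.le r)) ≤ 𝔫)
    (h₂ : centre s V₂ (fun r => hT.mem₂ (hW.le r)) ≤ 𝔫) : False := by
  obtain ⟨τ, hτ0, ⟨a, r, ha, hr, har⟩, hτ1⟩ := hloc 𝔫 h𝔫 hπ𝔫
  have hy₁ : r - algebraMap O (chartAlg O F₀ {s}) ξ₁ * a ∈ 𝔫 := by
    apply h₁
    rw [mem_centre]
    exact sub_mem_nonunits_of_root V₁ (hT.mem_nonunits₁ hτ1) (hT.mem₁ (hW.le a))
      (hT.mem₁ (hW.le (algebraMap O _ ξ₁))) hk₁ har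
  have hy₂ : r - algebraMap O (chartAlg O F₀ {s}) ξ₂ * a ∈ 𝔫 := by
    apply h₂
    rw [mem_centre]
    exact sub_mem_nonunits_of_root V₂ (hT.mem_nonunits₂ hτ1) (hT.mem₂ (hW.le a))
      (hT.mem₂ (hW.le (algebraMap O _ ξ₂))) hk₂ har
  have h3 : algebraMap O (chartAlg O F₀ {s}) (ξ₁ - ξ₂) * a ∈ 𝔫 := by
    have : algebraMap O (chartAlg O F₀ {s}) (ξ₁ - ξ₂) * a =
        (r - algebraMap O (chartAlg O F₀ {s}) ξ₂ * a) -
          (r - algebraMap O (chartAlg O F₀ {s}) ξ₁ * a) := by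
      rw [map_sub]; ring
    rw [this]
    exact 𝔫.sub_mem hy₂ hy₁
  obtain ⟨u, hu⟩ := hξ
  apply ha
  have h4 : a = algebraMap O (chartAlg O F₀ {s}) ((u⁻¹ : Oˣ) : O) *
      (algebraMap O (chartAlg O F₀ {s}) (ξ₁ - ξ₂) * a) := by
    rw [← mul_assoc, ← map_mul, ← hu, Units.inv_mul, map_one, one_mul]
  rw [h4]
  exact Ideal.mul_mem_left _ _ h3

end Chart

/-! ### The main theorem -/

section Final

open Fermat.Agent.N4.Cover.Main (adjoin_inv_eq)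

variable {O K₀ : Type*} [CommRing O] [IsDomain O] [IsDiscreteValuationRing O]
  [Field K₀] [CharZero K₀] [Algebra O K₀] [IsFractionRing O K₀]
variable {F₀ : Type u} [Field F₀] [Algebra K₀ F₀] [Algebra O F₀] [IsScalarTower O K₀ F₀]
variable {F' : Type*} [Field F'] [Algebra F₀ F'] [Algebra K₀ F'] [Algebra O F']
  [IsScalarTower K₀ F₀ F'] [IsScalarTower O K₀ F'] [IsScalarTower O F₀ F']

/-- **No split cyclic cover, dévissage form.**  `h ≡ 1` on both vertical components, with local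
`p ^ (n + 1)`-th roots `τ ≡ 1` at every closed point of the special fibre of both charts; then a
`p ^ n`-th root `k` of `h` cannot generate an irreducible Kummer cover of degree `p` in which `K₀` is
algebraically closed. -/
theorem no_split_cover_pow (j : F₀) (hj : Transcendental K₀ j) [FiniteDimensional K₀⟮j⟯ F₀]
    {π : O} (hπ : Irreducible π)
    (W : Subring F₀) [IsIntegrallyClosed W] [IsFractionRing W F₀]
    (V₁ V₂ : ValuationSubring F₀) (hT : TwoVal π W V₁ V₂)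
    (hWp : IsSemiGaussRing W (algebraMap O (chartAlg O F₀ {j}) π))
    (hWm : IsSemiGaussRing W (algebraMap O (chartAlg O F₀ {j⁻¹}) π))
    {p : ℕ} (hp : p.Prime) (hpO : IsUnit ((p : ℕ) : O)) (n : ℕ) {ζ : O}
    (hζ : IsPrimitiveRoot ζ (p ^ (n + 1)))
    {h k : F₀} (hk : k ^ (p ^ n) = h)
    (hh : ∃ w ∈ W, h - 1 = algebraMap O F₀ π * w)
    {t : F'} (ht : t ^ p = algebraMap F₀ F' k) (htop : F₀⟮t⟯ = ⊤)
    (hirr : Irreducible (X ^ p - C k : F₀[X]))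
    (halg : ∀ x : F', IsAlgebraic K₀ x → x ∈ (algebraMap K₀ F').range)
    (hlocp : LocalRoots π W j h (p ^ (n + 1)))
    (hlocm : LocalRoots π W j⁻¹ h (p ^ (n + 1))) : False := by
  classical
  have hjinv : Transcendental K₀ j⁻¹ := fun h => hj (by simpa using h.inv)
  haveI : FiniteDimensional K₀⟮j⁻¹⟯ F₀ := by rw [adjoin_inv_eq]; infer_instance
  have hinjO : Function.Injective (algebraMap O F₀) := by
    rw [IsScalarTower.algebraMap_eq O K₀ F₀]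
    exact (algebraMap K₀ F₀).injective.comp (IsFractionRing.injective O K₀)
  have hp0 : p ≠ 0 := hp.ne_zero
  have hpn : 0 < p ^ n := pow_pos hp.pos n
  -- the roots of unity
  have hζp : IsPrimitiveRoot (ζ ^ (p ^ n)) p := hζ.pow (pow_pos hp.pos _) (pow_succ p n)
  have hζ' : IsPrimitiveRoot (ζ ^ p) (p ^ n) := hζ.pow (pow_pos hp.pos _) (pow_succ' p n)
  have hζ'F : IsPrimitiveRoot (algebraMap O F₀ (ζ ^ p)) (p ^ n) := hζ'.map_of_injective hinjO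
  have hOW : ∀ x : O, algebraMap O F₀ x ∈ W := fun x => hWp.le (algebraMap O _ x)
  -- `h` and `k` are units of `W`
  obtain ⟨w₀, hw₀, hhw⟩ := hh
  have h1i₁ : (1 : F₀)⁻¹ ∈ V₁ := by rw [inv_one]; exact V₁.one_mem
  have h1i₂ : (1 : F₀)⁻¹ ∈ V₂ := by rw [inv_one]; exact V₂.one_mem
  have hh₁ : h - 1 ∈ V₁.nonunits := hT.mem_nonunits₁ ⟨w₀, hw₀, hhw⟩
  have hh₂ : h - 1 ∈ V₂.nonunits := hT.mem_nonunits₂ ⟨w₀, hw₀, hhw⟩
  obtain ⟨hh0, hhV₁, hhiV₁⟩ := mem_and_inv_mem_of_sub V₁ one_ne_zero V₁.one_mem h1i₁ hh₁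
  obtain ⟨-, hhV₂, hhiV₂⟩ := mem_and_inv_mem_of_sub V₂ one_ne_zero V₂.one_mem h1i₂ hh₂
  have hhW : h ∈ W := (hT.mem_iff h).2 ⟨hhV₁, hhV₂⟩
  have hhiW : h⁻¹ ∈ W := (hT.mem_iff _).2 ⟨hhiV₁, hhiV₂⟩
  have hk0 : k ≠ 0 := by
    rintro rfl
    rw [zero_pow hpn.ne'] at hk
    exact hh0 hk.symm
  have hkW : k ∈ W := by
    have hint : IsIntegral W k := by
      refine ⟨X ^ (p ^ n) - C ⟨h, hhW⟩, monic_X_pow_sub_C _ hpn.ne', ?_⟩
      rw [eval₂_sub, eval₂_pow, eval₂_X, eval₂_C]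
      show k ^ (p ^ n) - h = 0
      rw [hk, sub_self]
    obtain ⟨y, hy⟩ := IsIntegrallyClosed.algebraMap_eq_of_integral hint
    rw [← hy]
    exact y.2
  have hkiW : k⁻¹ ∈ W := by
    have hint : IsIntegral W k⁻¹ := by
      refine ⟨X ^ (p ^ n) - C ⟨h⁻¹, hhiW⟩, monic_X_pow_sub_C _ hpn.ne', ?_⟩
      rw [eval₂_sub, eval₂_pow, eval₂_X, eval₂_C]
      show k⁻¹ ^ (p ^ n) - h⁻¹ = 0
      rw [inv_pow, hk, sub_self]
    obtain ⟨y, hy⟩ := IsIntegrallyClosed.algebraMap_eq_of_integral hint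
    rw [← hy]
    exact y.2
  -- the residues of `k`
  have hk1₁ : k ^ (p ^ n) - 1 ∈ V₁.nonunits := by rw [hk]; exact hh₁
  have hk1₂ : k ^ (p ^ n) - 1 ∈ V₂.nonunits := by rw [hk]; exact hh₂
  obtain ⟨m₁, -, hkm₁⟩ := exists_pow_sub_mem V₁ hpn hζ'F (hT.mem₁ (hOW _)) (hT.mem₁ hkW) hk1₁
  obtain ⟨m₂, -, hkm₂⟩ := exists_pow_sub_mem V₂ hpn hζ'F (hT.mem₂ (hOW _)) (hT.mem₂ hkW) hk1₂
  -- the constants `c_i = ζ ^ m_i` (`p`-th roots of the residues) and their inverses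
  have hc : ∀ m : ℕ, ζ ^ m * (ζ ^ (p ^ (n + 1) - 1)) ^ m = 1 := fun m => by
    rw [← mul_pow, ← pow_succ', Nat.sub_add_cancel (Nat.one_le_iff_ne_zero.mpr
      (pow_ne_zero _ hp0)), hζ.pow_eq_one, one_pow]
  have hcp : ∀ m : ℕ, (algebraMap O F₀ (ζ ^ m)) ^ p = (algebraMap O F₀ (ζ ^ p)) ^ m := fun m => by
    rw [← map_pow, ← map_pow, ← pow_mul, ← pow_mul, mul_comm]
  have hcF : ∀ m : ℕ, algebraMap O F₀ (ζ ^ m) * algebraMap O F₀ ((ζ ^ (p ^ (n + 1) - 1)) ^ m) = 1 :=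
    fun m => by rw [← map_mul, hc, map_one]
  have hc0 : ∀ m : ℕ, algebraMap O F₀ (ζ ^ m) ≠ 0 := fun m => left_ne_zero_of_mul_eq_one (hcF m)
  have hci : ∀ m : ℕ, (algebraMap O F₀ (ζ ^ m))⁻¹ ∈ W := fun m => by
    rw [inv_eq_of_mul_eq_one_right (hcF m)]
    exact hOW _
  -- local roots of `k`
  have hlocp' : LocalRoots π W j k p := localRoots_pow (K₀ := K₀) j hj hp0 hk hlocp
  have hlocm' : LocalRoots π W j⁻¹ k p := localRoots_pow (K₀ := K₀) j⁻¹ hjinv hp0 hk hlocm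
  -- the vertical congruence, for a unit `g` of `W` with `g ^ p ≡ ξ_i` on `V_i`
  have hvert : ∀ g : F₀, g ≠ 0 → g⁻¹ ∈ W →
      g ^ p - algebraMap O F₀ (ζ ^ p) ^ m₁ ∈ V₁.nonunits →
      g ^ p - algebraMap O F₀ (ζ ^ p) ^ m₂ ∈ V₂.nonunits →
      ∃ w ∈ W, (g⁻¹) ^ p * k - 1 = algebraMap O F₀ π * w := by
    intro g hg0 hgiW hg₁ hg₂
    have hgg : (g⁻¹) ^ p * g ^ p = 1 := by rw [← mul_pow, inv_mul_cancel₀ hg0, one_pow]
    have hrew : (g⁻¹) ^ p * k - 1 = (g⁻¹) ^ p * (k - g ^ p) := by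
      linear_combination hgg
    rw [hrew]
    apply hT.exists_eq_mul
    · refine nu_mul V₁ (pow_mem (hT.mem₁ hgiW) p) ?_
      have : k - g ^ p = (k - algebraMap O F₀ (ζ ^ p) ^ m₁) -
          (g ^ p - algebraMap O F₀ (ζ ^ p) ^ m₁) := by ring
      rw [this]
      exact nu_sub V₁ hkm₁ hg₁
    · refine nu_mul V₂ (pow_mem (hT.mem₂ hgiW) p) ?_
      have : k - g ^ p = (k - algebraMap O F₀ (ζ ^ p) ^ m₂) -
          (g ^ p - algebraMap O F₀ (ζ ^ p) ^ m₂) := by ring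
      rw [this]
      exact nu_sub V₂ hkm₂ hg₂
  by_cases hm : (ζ ^ p) ^ m₁ = (ζ ^ p) ^ m₂
  · -- equal residues: a constant `g`
    have hτ := hvert (algebraMap O F₀ (ζ ^ m₁)) (hc0 m₁) (hci m₁)
      (by rw [hcp, sub_self]; exact nu_zero V₁)
      (by rw [hcp, ← map_pow, hm, map_pow, sub_self]; exact nu_zero V₂)
    exact Fermat.Agent.P3G.Cover.Main.no_split_cover_of_strong (K₀ := K₀) (F' := F') j hj hπ W
      hWp hWm hp hpO hζp hk0 ht htop hirr halg (hc0 m₁) (hOW _) (hci m₁) hτ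
      (strong_of_localRoots hWp _ _ (hc m₁) hlocp')
      (strong_of_localRoots hWm _ _ (hc m₁) hlocm')
  · -- different residues: the components are disjoint, `g` is not constant
    have hξunit : IsUnit ((ζ ^ p) ^ m₁ - (ζ ^ p) ^ m₂) := by
      have hN : IsUnit (((p ^ n : ℕ) : ℕ) : O) := by
        rw [Nat.cast_pow]
        exact hpO.pow n
      have h1 : ∀ m : ℕ, ((ζ ^ p) ^ m) ^ (p ^ n) = 1 := fun m => by
        rw [← pow_mul, mul_comm, pow_mul, hζ'.pow_eq_one, one_pow]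
      exact isUnit_sub_of_pow_eq_one hN (h1 m₁) (h1 m₂) hm
    have hk₁ : k - algebraMap O F₀ ((ζ ^ p) ^ m₁) ∈ V₁.nonunits := by rw [map_pow]; exact hkm₁
    have hk₂ : k - algebraMap O F₀ ((ζ ^ p) ^ m₂) ∈ V₂.nonunits := by rw [map_pow]; exact hkm₂
    have hnop := not_le_both hT hWp _ _ hξunit hk₁ hk₂ hlocp'
    have hnom := not_le_both hT hWm _ _ hξunit hk₁ hk₂ hlocm'
    -- the two components are disjoint in the chart `j`
    have hsup : centre j V₁ (fun r => hT.mem₁ (hWp.le r)) ⊔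
        centre j V₂ (fun r => hT.mem₂ (hWp.le r)) = ⊤ := by
      by_contra hne
      obtain ⟨𝔫, h𝔫, hle⟩ := Ideal.exists_le_maximal _ hne
      have hπ𝔫 : algebraMap O (chartAlg O F₀ {j}) π ∈ 𝔫 :=
        hle (Ideal.mem_sup_left (mem_centre.2 hT.pi_mem₁))
      exact hnop 𝔫 h𝔫 hπ𝔫 (le_sup_left.trans hle) (le_sup_right.trans hle)
    have h1mem : (1 : chartAlg O F₀ {j}) ∈ centre j V₁ (fun r => hT.mem₁ (hWp.le r)) ⊔
        centre j V₂ (fun r => hT.mem₂ (hWp.le r)) := by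
      rw [hsup]
      exact Submodule.mem_top
    obtain ⟨e₁, he₁, e₂, he₂, he⟩ := Submodule.mem_sup.1 h1mem
    rw [mem_centre] at he₁ he₂
    have heF : (e₁ : F₀) + (e₂ : F₀) = 1 := by
      have := congrArg (fun x : chartAlg O F₀ {j} => (x : F₀)) he
      simpa using this
    obtain ⟨g, hgdef⟩ : ∃ g : F₀, g = algebraMap O F₀ (ζ ^ m₁) * (e₂ : F₀) +
        algebraMap O F₀ (ζ ^ m₂) * (e₁ : F₀) := ⟨_, rfl⟩
    have hgc₁ : g - algebraMap O F₀ (ζ ^ m₁) ∈ V₁.nonunits := by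
      have : g - algebraMap O F₀ (ζ ^ m₁) =
          (algebraMap O F₀ (ζ ^ m₂) - algebraMap O F₀ (ζ ^ m₁)) * (e₁ : F₀) := by
        rw [hgdef]
        linear_combination (algebraMap O F₀ (ζ ^ m₁)) * heF
      rw [this]
      exact nu_mul V₁ (sub_mem (hT.mem₁ (hOW _)) (hT.mem₁ (hOW _))) he₁
    have hgc₂ : g - algebraMap O F₀ (ζ ^ m₂) ∈ V₂.nonunits := by
      have : g - algebraMap O F₀ (ζ ^ m₂) =
          (algebraMap O F₀ (ζ ^ m₁) - algebraMap O F₀ (ζ ^ m₂)) * (e₂ : F₀) := by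
        rw [hgdef]
        linear_combination (algebraMap O F₀ (ζ ^ m₂)) * heF
      rw [this]
      exact nu_mul V₂ (sub_mem (hT.mem₂ (hOW _)) (hT.mem₂ (hOW _))) he₂
    obtain ⟨hg0, hgV₁, hgiV₁⟩ := mem_and_inv_mem_of_sub V₁ (hc0 m₁) (hT.mem₁ (hOW _))
      (hT.mem₁ (hci m₁)) hgc₁
    obtain ⟨-, hgV₂, hgiV₂⟩ := mem_and_inv_mem_of_sub V₂ (hc0 m₂) (hT.mem₂ (hOW _))
      (hT.mem₂ (hci m₂)) hgc₂
    have hgW : g ∈ W := (hT.mem_iff g).2 ⟨hgV₁, hgV₂⟩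
    have hgiW : g⁻¹ ∈ W := (hT.mem_iff _).2 ⟨hgiV₁, hgiV₂⟩
    have hτ := hvert g hg0 hgiW
      (by have := pow_sub_pow_mem V₁ hgV₁ (hT.mem₁ (hOW _)) hgc₁ p; rwa [hcp] at this)
      (by have := pow_sub_pow_mem V₂ hgV₂ (hT.mem₂ (hOW _)) hgc₂ p; rwa [hcp] at this)
    -- the weak local hypothesis on a chart
    have hweak : ∀ (s : F₀) (hW : IsSemiGaussRing W (algebraMap O (chartAlg O F₀ {s}) π)),
        LocalRoots π W s k p →
        (∀ 𝔫 : Ideal (chartAlg O F₀ {s}), 𝔫.IsMaximal → algebraMap O (chartAlg O F₀ {s}) π ∈ 𝔫 →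
          centre s V₁ (fun r => hT.mem₁ (hW.le r)) ≤ 𝔫 →
          centre s V₂ (fun r => hT.mem₂ (hW.le r)) ≤ 𝔫 → False) →
        ∀ 𝔫 : Ideal (chartAlg O F₀ {s}), 𝔫.IsMaximal →
          algebraMap O (chartAlg O F₀ {s}) π ∈ 𝔫 → ∃ η : F₀, η ≠ 0 ∧
          (∃ a r : chartAlg O F₀ {s}, a ∉ 𝔫 ∧ r ∉ 𝔫 ∧
            k * algebraMap (chartAlg O F₀ {s}) F₀ a =
              η ^ p * algebraMap (chartAlg O F₀ {s}) F₀ r) ∧
          ∃ c : chartAlg O F₀ {s}, c ∉ 𝔫 ∧ ∀ m : ℕ, ∃ w ∈ W,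
            algebraMap (chartAlg O F₀ {s}) F₀ c * ((η⁻¹) ^ m - (g⁻¹) ^ m) =
              algebraMap O F₀ π * w := by
      intro s hW hloc hno 𝔫 h𝔫 hπ𝔫
      obtain ⟨τ, hτ0, ⟨a, r, ha, hr, har⟩, hτ1⟩ := hloc 𝔫 h𝔫 hπ𝔫
      have hor : centre s V₁ (fun r => hT.mem₁ (hW.le r)) ≤ 𝔫 ∨
          centre s V₂ (fun r => hT.mem₂ (hW.le r)) ≤ 𝔫 := by
        by_contra hcon
        push Not at hcon
        obtain ⟨h1, h2⟩ := hcon
        obtain ⟨x₁, hx₁, hx₁𝔫⟩ := SetLike.not_le_iff_exists.1 h1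
        obtain ⟨x₂, hx₂, hx₂𝔫⟩ := SetLike.not_le_iff_exists.1 h2
        rw [mem_centre] at hx₁ hx₂
        have hprod : x₁ * x₂ ∈ 𝔫 := by
          have h3 : ((x₁ * x₂ : chartAlg O F₀ {s}) : F₀) ∈ V₁.nonunits :=
            nu_mul' V₁ hx₁ (hT.mem₁ (hW.le x₂))
          have h4 : ((x₁ * x₂ : chartAlg O F₀ {s}) : F₀) ∈ V₂.nonunits :=
            nu_mul V₂ (hT.mem₂ (hW.le x₁)) hx₂
          obtain ⟨w, hw, hxw⟩ := hT.exists_eq_mul h3 h4
          obtain ⟨y, hy⟩ := hW.sat (x₁ * x₂) ⟨w, hw, hxw⟩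
          rw [hy]
          exact Ideal.mul_mem_right _ _ hπ𝔫
        rcases h𝔫.isPrime.mem_or_mem hprod with h5 | h5
        · exact hx₁𝔫 h5
        · exact hx₂𝔫 h5
      rcases hor with h1 | h2
      · have h2 : ¬ centre s V₂ (fun r => hT.mem₂ (hW.le r)) ≤ 𝔫 := fun h2 => hno 𝔫 h𝔫 hπ𝔫 h1 h2
        obtain ⟨d, hd, hd𝔫⟩ := SetLike.not_le_iff_exists.1 h2
        exact weak_of_root hT hW _ _ (hc m₁) hg0 hgiW hgc₁ 𝔫 hd𝔫 (mem_centre.1 hd) hτ0 ha hr har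
          hτ1
      · have h1 : ¬ centre s V₁ (fun r => hT.mem₁ (hW.le r)) ≤ 𝔫 := fun h1 => hno 𝔫 h𝔫 hπ𝔫 h1 h2
        obtain ⟨d, hd, hd𝔫⟩ := SetLike.not_le_iff_exists.1 h1
        exact weak_of_root hT.symm hW _ _ (hc m₂) hg0 hgiW hgc₂ 𝔫 hd𝔫 (mem_centre.1 hd) hτ0 ha
          hr har hτ1
    exact Fermat.Agent.P3G.Cover.Main.no_split_cover (K₀ := K₀) (F' := F') j hj hπ W
      hWp hWm hp hpO hζp hk0 ht htop hirr halg hg0 hgW hgiW hτ
      (hweak j hWp hlocp' hnop) (hweak j⁻¹ hWm hlocm' hnom)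

end Final

end Fermat.Agent.P3G.Assembly.PowCover
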