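/-
P3-G, block (G-A) (helper19): FROM THE CONTRADICTION AT A LEVEL TO `GeomStepAt`.

* `exists_pow_eq_of_level` : the positive form of `AtBasePow.no_kummer_pow_at_base` — at a level
  `(K, O)`, if `h ≡ 1` modulo `ϖ W` has local `p ^ (n + 1)`-th roots `≡ 1` at all closed points of
  the special fibres of both charts, every `k ∈ FF K N` with `k ^ (p ^ n) = h` becomes a `p`-th
  power in `Q̄ · F_N`.
* `GeomStepOneAt N q` : the normalised form of `GeomStep.GeomStepAt N q` (constant `c = 1`,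
  conclusion `∃ w, w ^ p = κ`), and `geomStepAt_of_one`.

So the geometric blocks have to produce, for `κ ^ (p ^ j) = σ²f · f / (σ f)²` with `p ^ k ∣ div f`,
`j < k`: a level `(K, O)`, `κ_K ∈ FF K N` with `phiK K N κ_K = κ`, and the hypotheses of
`exists_pow_eq_of_level` for `h := κ_K ^ (p ^ j)`, `n := j`.
-/
import Mathlib
import Fermat.Agent.P3G.Assembly.AtBasePow
import Fermat.Agent.P3G.GeomStep

set_option autoImplicit false
set_option linter.unusedSectionVars false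
set_option linter.dupNamespace false
set_option linter.style.haveILetI false

open ModularCurve AlgebraicCurve IntermediateField

noncomputable section

namespace Fermat.Agent.P3G.Assembly.StepOfLevel

open Fermat.Agent.N4.Setting Fermat.Agent.N4.Chart Fermat.Agent.N4.S18Glue
  Fermat.Agent.P3G.Cover.Lift Fermat.Agent.P3G.Assembly.PowCover
  Fermat.Agent.P3G.GammaDict Fermat.Agent.P3G.GeomStep
  Fermat.Agent.N4F.C Fermat.Agent.N4F.C.Galois

local notation "Qbar" => AlgebraicClosure ℚ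
local notation "Γ" => (AlgebraicClosure ℚ ≃ₐ[ℚ] AlgebraicClosure ℚ)

/-! ### The positive form of the contradiction at a level -/

section Level

variable (K : Type) [Field K] [CharZero K] [Algebra K Qbar] [Algebra.IsAlgebraic K Qbar]
  (N : ℕ) [NeZero N] (O : Subring K) [IsDiscreteValuationRing ↥O] [IsFractionRing ↥O K]

/-- **Positive form**: at a level, a `p ^ n`-th root of `h ≡ 1` with local `p ^ (n + 1)`-th roots
`≡ 1` is a `p`-th power over `Q̄`. -/
theorem exists_pow_eq_of_level {ϖ : ↥O} (hϖ : Irreducible ϖ)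
    (W : Subring (FF K N)) [IsIntegrallyClosed W] [IsFractionRing W (FF K N)]
    (V₁ V₂ : ValuationSubring (FF K N)) (hT : TwoVal ϖ W V₁ V₂)
    (hWp : IsSemiGaussRing W (algebraMap ↥O (chartAlg ↥O (FF K N) {jF K N}) ϖ))
    (hWm : IsSemiGaussRing W (algebraMap ↥O (chartAlg ↥O (FF K N) {(jF K N)⁻¹}) ϖ))
    {p : ℕ} (hp : p.Prime) (hpO : IsUnit ((p : ℕ) : ↥O)) (n : ℕ) {ζ : ↥O}
    (hζ : IsPrimitiveRoot ζ (p ^ (n + 1)))
    {h k : FF K N} (hk : k ^ (p ^ n) = h)
    (hh : ∃ w ∈ W, h - 1 = algebraMap ↥O (FF K N) ϖ * w)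
    (hlocp : LocalRoots ϖ W (jF K N) h (p ^ (n + 1)))
    (hlocm : LocalRoots ϖ W (jF K N)⁻¹ h (p ^ (n + 1))) :
    ∃ w : ↥(modularFunctionFieldBar N), w ^ p = phiK K N k := by
  by_contra hne
  push Not at hne
  exact Fermat.Agent.P3G.Assembly.AtBasePow.no_kummer_pow_at_base K N O hϖ W V₁ V₂ hT hWp hWm hp
    hpO n hζ hk hh hlocp hlocm hne

end Level

/-! ### The normalised form of `GeomStepAt` -/

/-- **(G), prime-degree Kummer form, normalised**: constant `1`, conclusion `∃ w, w ^ p = κ`. -/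
def GeomStepOneAt (N : ℕ) [NeZero N] (q : ℕ) : Prop :=
  ∀ A : ValuationSubring Qbar, A.LiesOverPrime q → ∀ σ ∈ A.inertiaSubgroupIn ℚ,
    ∀ p : ℕ, p.Prime → p ≠ q → ∀ k j : ℕ, j < k → ∀ (f κ : Fb N), f ≠ 0 →
      (∀ P : Place Qb (Fb N), ((p ^ k : ℕ) : ℤ) ∣ P.ord f) →
      κ ^ (p ^ j) = diffFn (gal N σ) (diffFn (gal N σ) f) →
        ∃ w : Fb N, w ^ p = κ

/-- The normalised form gives `GeomStepAt` (`Q̄` is algebraically closed). -/
theorem geomStepAt_of_one {N : ℕ} [NeZero N] {q : ℕ} (h : GeomStepOneAt N q) :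
    GeomStepAt N q := by
  intro A hA σ hσ p hp hpq k j hjk f κ c hf hc hdiv hκ
  have hpj : p ^ j ≠ 0 := pow_ne_zero j hp.ne_zero
  -- a `p^j`-th root of `c`
  obtain ⟨c₀, hc₀⟩ := IsAlgClosed.exists_pow_nat_eq c (Nat.pos_of_ne_zero hpj)
  have hc₀0 : c₀ ≠ 0 := by
    rintro rfl
    rw [zero_pow hpj] at hc₀
    exact hc hc₀.symm
  have hc₀F : algebraMap Qb (Fb N) c₀ ≠ 0 := (map_ne_zero _).mpr hc₀0
  have h1 : (κ / algebraMap Qb (Fb N) c₀) ^ (p ^ j) =
      diffFn (gal N σ) (diffFn (gal N σ) f) := by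
    rw [div_pow, hκ, ← map_pow, hc₀, mul_div_assoc, mul_comm, div_mul_cancel₀]
    exact (map_ne_zero _).mpr hc
  obtain ⟨w, hw⟩ := h A hA σ hσ p hp hpq k j hjk f _ hf hdiv h1
  refine ⟨c₀, w, hc₀0, ?_⟩
  rw [hw, mul_div_cancel₀ _ hc₀F]

end Fermat.Agent.P3G.Assembly.StepOfLevel
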