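/-
P3-G, block (G-A) (helper19): THE DESCENT FROM `Q̄` TO A GALOIS-STABLE LEVEL.

`geomStepOneAt_of_levelGeom : LevelGeomAt N q → q.Prime → GeomStepOneAt N q`.

`LevelGeomAt N q` is the geometric input at a stable level, in the exact shape of
`StepOfLevel.exists_pow_eq_of_level` (= helper20's `PowCover.no_split_cover_pow` at `FF (Lvl K) N`):
for `σ ∈ I_A`, `A ∣ q`, a prime `p ≠ q`, and `f ∈ Q̄ · F_N` with `p ^ k ∣ div f` there is a number field
`K₁` such that at every GOOD LEVEL `K ⊇ K₁` (`IsGoodLevel`: Galois-stable, `⊇ K₀`, contains the roots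
of unity of order prime to `q`, `O_K = A ∩ K` a discrete valuation ring with algebraically closed
residue field `= κ(A)`) and for every model `f_K ∈ FF (Lvl K) N` of `f`:

  there are a uniformiser `ϖ`, two valuation rings `V₁ V₂` of `FF (Lvl K) N` with `W = V₁ ∩ V₂`
  semilocal Gauss for both charts, such that the second difference `h = σ_K² f_K · f_K / (σ_K f_K)²`
  (`σ_K = GammaAut.levelFF`, the coefficientwise action) is `≡ 1` modulo `ϖ W` and has local
  `p ^ k`-th roots `≡ 1` modulo `ϖ W` at every closed point of the special fibres of both charts.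

The descent itself (this file): choose `K` containing the coefficients of `f` and `κ`, transport
`κ ^ (p ^ j) = (σ − 1)² f` to level `K` (`GammaAut.levK_levelFF_smul` + injectivity of `levK`),
lower the exponent of the local roots from `p ^ k` to `p ^ (j + 1)`, find `ζ_{p^(j+1)} ∈ O_K`.
-/
import Mathlib
import Fermat.Agent.P3G.Assembly.StepOfLevel
import Fermat.Agent.P3G.GammaAut
import Fermat.Agent.P3G.GammaBase
import Fermat.Agent.N4.S18Glue.Final

set_option autoImplicit false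
set_option linter.unusedSectionVars false
set_option linter.dupNamespace false
set_option linter.style.haveILetI false

open ModularCurve AlgebraicCurve IntermediateField

noncomputable section

namespace Fermat.Agent.P3G.Assembly.LevelStep

open Fermat.Agent.N4.Setting Fermat.Agent.N4.Chart Fermat.Agent.N4.S18Glue Fermat.Agent.N4.BigDVR
  Fermat.Agent.P3G.Cover.Lift Fermat.Agent.P3G.Assembly.PowCover
  Fermat.Agent.P3G.Assembly.StepOfLevel
  Fermat.Agent.P3G.GammaDict Fermat.Agent.P3G.GeomStep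
  Fermat.Agent.P3G.Gamma Fermat.Agent.P3G.GammaAut
  Fermat.Agent.N4F.C Fermat.Agent.N4F.C.Levels Fermat.Agent.N4F.C.Galois

local notation "Qbar" => AlgebraicClosure ℚ
local notation "Γ" => (AlgebraicClosure ℚ ≃ₐ[ℚ] AlgebraicClosure ℚ)

/-! ### Lowering the exponent of local roots -/

section Lower

variable {O : Type*} [CommRing O] {F₀ : Type*} [Field F₀] [Algebra O F₀]

/-- Local roots of exponent `e * m` give local roots of exponent `e` (`τ ↦ τ ^ m`). -/
theorem localRoots_of_mul {π : O} {W : Subring F₀} (hπW : algebraMap O F₀ π ∈ W) {s h : F₀}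
    {e m : ℕ} (hloc : LocalRoots π W s h (e * m)) : LocalRoots π W s h e := by
  intro 𝔫 h𝔫 hπ𝔫
  obtain ⟨τ, hτ0, ⟨a, r, ha, hr, har⟩, w, hw, hτ1⟩ := hloc 𝔫 h𝔫 hπ𝔫
  refine ⟨τ ^ m, pow_ne_zero m hτ0, ⟨a, r, ha, hr, ?_⟩, ?_⟩
  · rw [← pow_mul, mul_comm m e]
    exact har
  · have hτW : τ ∈ W := by
      have : τ = 1 + algebraMap O F₀ π * w := by linear_combination hτ1
      rw [this]
      exact W.add_mem W.one_mem (W.mul_mem hπW hw)
    refine ⟨w * ∑ i ∈ Finset.range m, τ ^ i,
      W.mul_mem hw (W.sum_mem fun i _ => W.pow_mem hτW i), ?_⟩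
    rw [← mul_assoc, ← hτ1, mul_geom_sum]

end Lower

/-! ### Good levels and the second difference at a level -/

/-- **Good levels**: Galois-stable, containing the unramified base level and the roots of unity of
order prime to `q`, with `O_K = A ∩ K` a discrete valuation ring whose residue field is
algebraically closed and equal to that of `A`.  (The output of `Gamma.exists_stable_level_ge`.) -/
structure IsGoodLevel (A : ValuationSubring Qbar) (q : ℕ) (K : IntermediateField ℚ Qbar) :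
    Prop where
  stable : ∀ (τ : Γ) (x : Qbar), x ∈ K → τ x ∈ K
  K0_le : K0 A ≤ K
  roots : ∀ ξ ∈ goodRoots A, ξ ∈ K
  dvr : IsDiscreteValuationRing ↥(baseRing A K)
  not_unit : ¬ IsUnit ((q : ℕ) : tr A K)
  algClosed : IsAlgClosed (IsLocalRing.ResidueField (tr A K))
  bij : Function.Bijective (IsLocalRing.ResidueField.map (trIncl A K))

/-- Good levels exist above every number field. -/
theorem exists_isGoodLevel_ge {A : ValuationSubring Qbar} {q : ℕ} (hq : q.Prime)
    (hA : A.LiesOverPrime q) (K₂ : IntermediateField ℚ Qbar) [FiniteDimensional ℚ K₂] :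
    ∃ K : IntermediateField ℚ Qbar, K₂ ≤ K ∧ IsGoodLevel A q K := by
  obtain ⟨K, h1, h2, h3, h4, h5, h6, h7, h8⟩ := exists_stable_level_ge hq hA K₂
  exact ⟨K, h1, ⟨h3, h2, h4, h5, h6, h7, h8⟩⟩

section SecondDiff

variable (K : IntermediateField ℚ Qbar) (hK : ∀ (τ : Γ) (x : Qbar), x ∈ K → τ x ∈ K)
  (N : ℕ) [NeZero N]

/-- The second difference `σ_K² f · f / (σ_K f)²` at a stable level, `σ_K = levelFF K hK N σ`. -/
def sdK (σ : Γ) (f : FF (Lvl K) N) : FF (Lvl K) N :=
  levelFF K hK N σ • (levelFF K hK N σ • f) * f / (levelFF K hK N σ • f) ^ 2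

theorem sdK_def (σ : Γ) (f : FF (Lvl K) N) :
    sdK K hK N σ f =
      levelFF K hK N σ • (levelFF K hK N σ • f) * f / (levelFF K hK N σ • f) ^ 2 := rfl

/-- The level map carries the second difference at level `K` to the second difference over
`Q̄`. -/
theorem levK_sdK (σ : Γ) {f : FF (Lvl K) N} (hf : f ≠ 0) :
    levK N K (sdK K hK N σ f) =
      diffFn (gal N σ) (diffFn (gal N σ) (levK N K f)) := by
  have hf' : levK N K f ≠ 0 := (map_ne_zero_iff _ (levK N K).toRingHom.injective).mpr hf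
  rw [diffFn_diffFn (gal N σ) hf', sdK_def, map_div₀, map_mul, map_pow, levK_levelFF_smul,
    levK_levelFF_smul]

end SecondDiff

/-! ### The geometric input at a level -/

/-- **(G) at a stable level**: the hypotheses of `StepOfLevel.exists_pow_eq_of_level` for the second
difference of a model `f_K` of `f`, at every good level above a number field `K₁` depending on the
data. -/
def LevelGeomAt (N : ℕ) [NeZero N] (q : ℕ) : Prop :=
  ∀ A : ValuationSubring Qbar, A.LiesOverPrime q → ∀ σ ∈ A.inertiaSubgroupIn ℚ,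
    ∀ p : ℕ, p.Prime → p ≠ q → ∀ (k : ℕ) (f : Fb N), f ≠ 0 →
      (∀ P : Place Qb (Fb N), ((p ^ k : ℕ) : ℤ) ∣ P.ord f) →
      ∃ K₁ : IntermediateField ℚ Qbar, FiniteDimensional ℚ K₁ ∧
        ∀ (K : IntermediateField ℚ Qbar) (hK : IsGoodLevel A q K), K₁ ≤ K →
          ∀ fK : FF (Lvl K) N, levK N K fK = f →
            ∃ (ϖ : ↥(baseRing A K)) (W : Subring (FF (Lvl K) N)) (_ : IsIntegrallyClosed W)
              (_ : IsFractionRing W (FF (Lvl K) N)) (V₁ V₂ : ValuationSubring (FF (Lvl K) N)),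
              Irreducible ϖ ∧ TwoVal ϖ W V₁ V₂ ∧
              IsSemiGaussRing W
                (algebraMap ↥(baseRing A K) (Rfin (Lvl K) N (baseRing A K)) ϖ) ∧
              IsSemiGaussRing W
                (algebraMap ↥(baseRing A K) (Rinf (Lvl K) N (baseRing A K)) ϖ) ∧
              (∃ w ∈ W, sdK K hK.stable N σ fK - 1 =
                algebraMap ↥(baseRing A K) (FF (Lvl K) N) ϖ * w) ∧
              LocalRoots ϖ W (jF (Lvl K) N) (sdK K hK.stable N σ fK) (p ^ k) ∧
              LocalRoots ϖ W (jF (Lvl K) N)⁻¹ (sdK K hK.stable N σ fK) (p ^ k)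

/-! ### The descent -/

set_option maxHeartbeats 1600000 in
/-- **From a stable level to `Q̄`**: the geometric input at good levels gives the normalised
prime-degree Kummer form of (G). -/
theorem geomStepOneAt_of_levelGeom {N : ℕ} [NeZero N] {q : ℕ} (hq : q.Prime)
    (h : LevelGeomAt N q) : GeomStepOneAt N q := by
  classical
  intro A hA σ hσ p hp hpq k j hjk f κ hf hdiv hκ
  obtain ⟨K₁, hK₁fin, hK₁⟩ := h A hA σ hσ p hp hpq k f hf hdiv
  -- a number field containing the coefficients of `f` and `κ`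
  obtain ⟨K₂, hK₂fin, hK₂⟩ := exists_finiteDimensional_level N {f, κ} ∅
  haveI := hK₁fin
  haveI := hK₂fin
  haveI : FiniteDimensional ℚ ↥(K₁ ⊔ K₂) := IntermediateField.finiteDimensional_sup K₁ K₂
  obtain ⟨K, hle, hK⟩ := exists_isGoodLevel_ge hq hA (K₁ ⊔ K₂)
  have h1 : K₁ ≤ K := le_sup_left.trans hle
  have h2 : K₂ ≤ K := le_sup_right.trans hle
  obtain ⟨fK, hfK⟩ := (hK₂ K h2).1 f (by simp)
  obtain ⟨κK, hκK⟩ := (hK₂ K h2).1 κ (by simp)
  obtain ⟨ϖ, W, iW1, iW2, V₁, V₂, hϖ, hT, hWp, hWm, hh, hlocp, hlocm⟩ := hK₁ K hK h1 fK hfK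
  haveI := hK.dvr
  haveI : IsFractionRing ↥(baseRing A K) (Lvl K) := isFractionRing_trSubring A K
  have hfK0 : fK ≠ 0 := by
    rintro rfl
    rw [map_zero] at hfK
    exact hf hfK.symm
  -- the Kummer equation at level `K`
  have hκ' : κK ^ (p ^ j) = sdK K hK.stable N σ fK := by
    apply (levK N K).toRingHom.injective
    show levK N K (κK ^ (p ^ j)) = levK N K (sdK K hK.stable N σ fK)
    rw [map_pow, hκK, levK_sdK K hK.stable N σ hfK0, hfK, hκ]
  -- units and roots of unity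
  have hqA : ((q : ℕ) : Qbar) ∈ A.nonunits := hA
  have hpA : ((p : ℕ) : Qbar) ∉ A.nonunits := natCast_not_mem_nonunits A hq hqA hp hpq
  have hpO : IsUnit ((p : ℕ) : ↥(baseRing A K)) := isUnit_natCast_trS A (Lvl K) hpA
  have hpjA : ((p ^ (j + 1) : ℕ) : Qbar) ∉ A.nonunits :=
    natCast_not_mem_nonunits_of_not_dvd A hq hqA fun hdvd =>
      hpq ((Nat.prime_dvd_prime_iff_eq hq hp).mp (hq.dvd_of_dvd_pow hdvd)).symm
  obtain ⟨ζ, hζ⟩ := exists_primitiveRoot_trS A (Lvl K)
    (fun ξ hξ => (Lvl.mem_range_iff K).mpr (hK.roots ξ hξ)) (pow_pos hp.pos (j + 1)) hpjA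
  -- lower the exponent of the local roots
  have hπW : algebraMap ↥(baseRing A K) (FF (Lvl K) N) ϖ ∈ W :=
    hWp.le (algebraMap ↥(baseRing A K) (Rfin (Lvl K) N (baseRing A K)) ϖ)
  have hm : p ^ k = p ^ (j + 1) * p ^ (k - j - 1) := by
    rw [← pow_add]
    congr 1
    omega
  rw [hm] at hlocp hlocm
  obtain ⟨w, hw⟩ := exists_pow_eq_of_level (Lvl K) N (baseRing A K) hϖ W V₁ V₂ hT hWp hWm hp hpO
    j hζ hκ' hh (localRoots_of_mul hπW hlocp) (localRoots_of_mul hπW hlocm)
  exact ⟨w, hw.trans hκK⟩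

/-- `GeomStepAt` from the geometric input at good levels. -/
theorem geomStepAt_of_levelGeom {N : ℕ} [NeZero N] {q : ℕ} (hq : q.Prime)
    (h : LevelGeomAt N q) : GeomStepAt N q :=
  geomStepAt_of_one (geomStepOneAt_of_levelGeom hq h)

/-- **(G) at stable levels**, for all `q ∥ N'`. -/
def LevelGeomAll : Prop :=
  ∀ (N' : ℕ) [NeZero N'] (q : ℕ), q.Prime → q ∣ N' → ¬ q ^ 2 ∣ N' → LevelGeomAt N' q

/-- The same at the levels without elliptic points only. -/
def LevelGeom : Prop :=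
  ∀ (N' : ℕ) [NeZero N'] (q : ℕ), q.Prime → q ∣ N' → ¬ q ^ 2 ∣ N' →
    (∃ r : ℕ, r.Prime ∧ r ∣ N' ∧ r ≠ q ∧ r % 12 = 11) → LevelGeomAt N' q

theorem levelGeom_of_all (h : LevelGeomAll) : LevelGeom :=
  fun N' _ q hq hqN hq2 _ => h N' q hq hqN hq2

theorem geomStepAll_of_levelGeomAll (h : LevelGeomAll) : GeomStepAll :=
  fun N' _ q hq hqN hq2 => geomStepAt_of_levelGeom hq (h N' q hq hqN hq2)

theorem geomStep_of_levelGeom (h : LevelGeom) : GeomStep.GeomStep :=
  fun N' _ q hq hqN hq2 hr => geomStepAt_of_levelGeom hq (h N' q hq hqN hq2 hr)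

/-- **Frozen S34 from the Eichler–Shimura relation on torsion and (G) at stable levels.** -/
theorem s34_of_es_of_levelGeom
    (hES : ∀ (N : ℕ) [NeZero N], Fermat.Agent.N4F.Res.ESOnTorsionAll N) (hG : LevelGeom)
    {𝒪 : Type} [CommRing 𝒪] [IsDomain 𝒪] [IsDiscreteValuationRing 𝒪]
    [IsAdicComplete (IsLocalRing.maximalIdeal 𝒪) 𝒪] [Finite (IsLocalRing.ResidueField 𝒪)]
    [CharZero 𝒪]
    {p : ℕ} (hp : p.Prime) (hp𝒪 : (p : 𝒪) ∈ IsLocalRing.maximalIdeal 𝒪)
    {N : ℕ} [NeZero N] {S : Finset ℕ} (hpS : p ∈ S) (hNS : ∀ q : ℕ, q.Prime → q ∣ N → q ∈ S)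
    {θ : CuspForm.heckeAlgebra N 2 (↑S : Set ℕ) →+* IsLocalRing.ResidueField 𝒪}
    {T : Type} [CommRing T] [IsLocalRing T] [IsNoetherianRing T]
    [IsAdicComplete (IsLocalRing.maximalIdeal T) T] [Algebra 𝒪 T] [IsLocalHom (algebraMap 𝒪 T)]
    [Module.Finite 𝒪 T] [Module.Free 𝒪 T]
    (H : CuspForm.HeckeGaloisRepDatum N (↑S : Set ℕ) 𝒪 θ T)
    (q : ℕ) (hq : q.Prime) (hqp : q ≠ p) (hqN : q ∣ N) (hq2 : ¬ q ^ 2 ∣ N) :
    H.ρ.IsUnipotentOnInertiaAt q :=
  s34_of_es_of_step hES (geomStep_of_levelGeom hG) hp hp𝒪 hpS hNS H q hq hqp hqN hq2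

end Fermat.Agent.P3G.Assembly.LevelStep
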