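/-
P3-G, block (G-A) (helper19): `LevelGeomAt N q` FROM THE VERTICAL DATA AND (Loc-P) AT A LEVEL.

`LevelStep.LevelGeomAt N q` asks, for a function `f` with `p ^ k ∣ div f`, for local `p ^ k`-th roots
`≡ 1` of the second difference of a model `f_K` at every closed point of the special fibres of both
charts of a good level `K`.  This file discharges all the bookkeeping about `f`:

* the number field `K₁` over which the zeros and poles of `f` become rational;
* the divisor `D_K(Q) = ord_Q f_K / p ^ k` on the places of `F_K` (`p ^ k ∣ ord_Q f_K` for EVERY place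
  `Q` of `F_K`, rational or not, since `Q` has an unramified extension to `Q̄ · F_N`);
* the permutation `τ` of the places induced by `σ_K = GammaAut.levelFF`, `Compat` (= `ord_smul`), the
  horizontal divisor `p ^ k · (τ − 1)² D_K` of the second difference;
* `h ≡ 1` modulo `ϖ W` (`SecondDiff.isPU_sd`), and the call of helper1's
  `LocalRootsAt.localRoots_of_locP` for both charts.

What remains are two statements about the LEVEL only (no `f`, no `p`, no divisor):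
`VertLevel` (the two vertical valuation rings, `σ_K`-stable with trivial action on the residue fields)
and `LocPChart` (every closed point of the special fibre is `σ_K`-stable as a set of places, and every
rational place through it has a local equation).
-/
import Mathlib
import Fermat.Agent.P3G.Assembly.LevelStep
import Fermat.Agent.P3G.LocalRootsAt

set_option autoImplicit false
set_option linter.unusedSectionVars false
set_option linter.dupNamespace false
set_option linter.style.haveILetI false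

open ModularCurve AlgebraicCurve IntermediateField

noncomputable section

namespace Fermat.Agent.P3G.Assembly.LevelGeomOfPoints

open Fermat.Agent.N4.Setting Fermat.Agent.N4.Chart Fermat.Agent.N4.S18Glue Fermat.Agent.N4.BigDVR
  Fermat.Agent.P3G.Cover.Lift Fermat.Agent.P3G.Assembly.PowCover
  Fermat.Agent.P3G.Assembly.StepOfLevel Fermat.Agent.P3G.Assembly.LevelStep
  Fermat.Agent.P3G.GammaDict Fermat.Agent.P3G.GeomStep
  Fermat.Agent.P3G.Gamma Fermat.Agent.P3G.GammaAut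
  Fermat.Agent.P3G.SecondDiff Fermat.Agent.P3G.UCrit Fermat.Agent.P3G.LocalRootsAt
  Fermat.Agent.N4F.C Fermat.Agent.N4F.C.Levels Fermat.Agent.N4F.C.Galois
open Fermat.Agent.S24.PlaceDeriv (ResidueTrivial)

local notation "Qbar" => AlgebraicClosure ℚ
local notation "Γ" => (AlgebraicClosure ℚ ≃ₐ[ℚ] AlgebraicClosure ℚ)

/-! ### The permutation of the places induced by a semilinear automorphism -/

section Perm

variable {K₀ F₀ : Type*} [Field K₀] [Field F₀] [Algebra K₀ F₀] (g : SemilinearAut K₀ F₀)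

/-- The permutation `Q ↦ g • Q` of the places. -/
def tauPerm : Equiv.Perm (Place K₀ F₀) := MulAction.toPerm g

theorem tauPerm_symm_apply (Q : Place K₀ F₀) : (tauPerm g).symm Q = g⁻¹ • Q := rfl

theorem compat_tauPerm :
    Compat (fun (Q : Place K₀ F₀) (x : F₀) => Q.ord x) (SemilinearAut.toRingAut g) (tauPerm g) :=
  fun Q f => SemilinearAut.ord_smul g Q f

theorem ordMul_place : OrdMul (fun (Q : Place K₀ F₀) (x : F₀) => Q.ord x) :=
  fun Q _ _ hf hg => Q.ord_mul hf hg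

end Perm

/-! ### The two hypotheses on a level -/

section Level

variable (A : ValuationSubring Qbar) (K : IntermediateField ℚ Qbar)
  (hKs : ∀ (τ : Γ) (x : Qbar), x ∈ K → τ x ∈ K) (N : ℕ) [NeZero N] (σ : Γ)

/-- **The vertical data at a level**: a uniformiser `ϖ` of `O_K`, the two vertical valuation rings
`V₁ V₂` with `W = V₁ ∩ V₂` semilocal Gauss for both charts, both stable under `σ_K` with trivial action
on the residue fields. -/
structure VertLevel (ϖ : ↥(baseRing A K)) (W : Subring (FF (Lvl K) N))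
    (V₁ V₂ : ValuationSubring (FF (Lvl K) N)) : Prop where
  irr : Irreducible ϖ
  twoVal : TwoVal ϖ W V₁ V₂
  semiP : IsSemiGaussRing W (algebraMap ↥(baseRing A K) (Rfin (Lvl K) N (baseRing A K)) ϖ)
  semiM : IsSemiGaussRing W (algebraMap ↥(baseRing A K) (Rinf (Lvl K) N (baseRing A K)) ϖ)
  val₁ : ∀ x : FF (Lvl K) N, V₁.valuation (levelFF K hKs N σ • x) = V₁.valuation x
  val₂ : ∀ x : FF (Lvl K) N, V₂.valuation (levelFF K hKs N σ • x) = V₂.valuation x
  triv₁ : ∀ x ∈ V₁, levelFF K hKs N σ • x - x ∈ V₁.nonunits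
  triv₂ : ∀ x ∈ V₂, levelFF K hKs N σ • x - x ∈ V₂.nonunits

/-- **(Loc-P) on a chart of a level**: every closed point `𝔫` of the special fibre of the chart
`chartAlg O_K F_K {s}` is `σ_K`-stable (as a set of places centred at it), and every rational place
centred at `𝔫` has a local equation `b`: `ord_P b = 1`, `ord_Q b = 0` at the other places centred at
`𝔫`. -/
def LocPChart (ϖ : ↥(baseRing A K)) (s : FF (Lvl K) N) : Prop :=
  ∀ 𝔫 : Ideal (chartAlg ↥(baseRing A K) (FF (Lvl K) N) {s}), 𝔫.IsMaximal →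
    algebraMap ↥(baseRing A K) (chartAlg ↥(baseRing A K) (FF (Lvl K) N) {s}) ϖ ∈ 𝔫 →
    (∀ Q ∈ centredSet (F := FF (Lvl K) N) (Lvl K) 𝔫, (levelFF K hKs N σ)⁻¹ • Q ∈ centredSet (F := FF (Lvl K) N) (Lvl K) 𝔫) ∧
    ∀ P ∈ centredSet (F := FF (Lvl K) N) (Lvl K) 𝔫, ResidueTrivial P →
      ∃ b : FF (Lvl K) N, b ≠ 0 ∧ P.ord b = 1 ∧
        ∀ Q ∈ centredSet (F := FF (Lvl K) N) (Lvl K) 𝔫, Q ≠ P → Q.ord b = 0

theorem sdK_eq_sd (f : FF (Lvl K) N) :
    sdK K hKs N σ f = sd (SemilinearAut.toRingAut (levelFF K hKs N σ)) f := rfl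

variable {A K hKs N σ}

/-- The second difference is a principal unit at both vertical valuation rings. -/
theorem VertLevel.isPU₁ {ϖ : ↥(baseRing A K)} {W : Subring (FF (Lvl K) N)}
    {V₁ V₂ : ValuationSubring (FF (Lvl K) N)} (hV : VertLevel A K hKs N σ ϖ W V₁ V₂)
    {f : FF (Lvl K) N} (hf : f ≠ 0) : IsPU V₁ (sdK K hKs N σ f) := by
  rw [sdK_eq_sd]
  exact isPU_sd _ hV.val₁ hV.triv₁ hf

theorem VertLevel.isPU₂ {ϖ : ↥(baseRing A K)} {W : Subring (FF (Lvl K) N)}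
    {V₁ V₂ : ValuationSubring (FF (Lvl K) N)} (hV : VertLevel A K hKs N σ ϖ W V₁ V₂)
    {f : FF (Lvl K) N} (hf : f ≠ 0) : IsPU V₂ (sdK K hKs N σ f) := by
  rw [sdK_eq_sd]
  exact isPU_sd _ hV.val₂ hV.triv₂ hf

/-- `h ≡ 1` modulo `ϖ W`. -/
theorem VertLevel.exists_sdK_sub_one {ϖ : ↥(baseRing A K)} {W : Subring (FF (Lvl K) N)}
    {V₁ V₂ : ValuationSubring (FF (Lvl K) N)} (hV : VertLevel A K hKs N σ ϖ W V₁ V₂)
    {f : FF (Lvl K) N} (hf : f ≠ 0) :
    ∃ w ∈ W, sdK K hKs N σ f - 1 = algebraMap ↥(baseRing A K) (FF (Lvl K) N) ϖ * w :=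
  hV.twoVal.exists_eq_mul (hV.isPU₁ hf).sub_one_mem_nonunits (hV.isPU₂ hf).sub_one_mem_nonunits

/-- **Local roots of the second difference on one chart**, from the vertical data and (Loc-P). -/
theorem localRoots_sdK [IsDiscreteValuationRing ↥(baseRing A K)]
    [IsFractionRing ↥(baseRing A K) (Lvl K)]
    {ϖ : ↥(baseRing A K)} {W : Subring (FF (Lvl K) N)}
    {V₁ V₂ : ValuationSubring (FF (Lvl K) N)} (hV : VertLevel A K hKs N σ ϖ W V₁ V₂)
    (s : FF (Lvl K) N)
    [IsNoetherianRing (chartAlg ↥(baseRing A K) (FF (Lvl K) N) {s})]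
    [IsFractionRing (chartAlg ↥(baseRing A K) (FF (Lvl K) N) {s}) (FF (Lvl K) N)]
    [IsIntegrallyClosed (chartAlg ↥(baseRing A K) (FF (Lvl K) N) {s})]
    (hsemi : IsSemiGaussRing W
      (algebraMap ↥(baseRing A K) (chartAlg ↥(baseRing A K) (FF (Lvl K) N) {s}) ϖ))
    (hP : LocPChart A K hKs N σ ϖ s)
    {f : FF (Lvl K) N} (hf : f ≠ 0) {e : ℕ} (he : e ≠ 0)
    (hdiv : ∀ Q : Place (Lvl K) (FF (Lvl K) N), (e : ℤ) ∣ Q.ord f)
    (S : Finset (Place (Lvl K) (FF (Lvl K) N)))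
    (hS : ∀ Q : Place (Lvl K) (FF (Lvl K) N), Q.ord f ≠ 0 → Q ∈ S)
    (hSrat : ∀ Q ∈ S, ResidueTrivial Q) :
    LocalRoots ϖ W s (sdK K hKs N σ f) e := by
  classical
  have he' : (e : ℤ) ≠ 0 := Nat.cast_ne_zero.mpr he
  -- the divisor `D = div f / e`
  set D : Place (Lvl K) (FF (Lvl K) N) → ℤ := fun Q => Q.ord f / (e : ℤ) with hD
  have hDmul : ∀ Q : Place (Lvl K) (FF (Lvl K) N), Q.ord f = (e : ℤ) * D Q := fun Q =>
    (Int.mul_ediv_cancel' (hdiv Q)).symm
  rw [sdK_eq_sd]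
  refine localRoots_of_locP (K₀ := Lvl K) s hV.irr hV.twoVal hsemi
    (SemilinearAut.toRingAut (levelFF K hKs N σ)) hV.val₁ hV.val₂ hV.triv₁ hV.triv₂
    (τ := tauPerm (levelFF K hKs N σ)) (compat_tauPerm _) e (sd_ne_zero _ hf)
    ?_ ?_ ?_
  · have h := (hV.isPU₁ hf).valuation_eq_one
    rwa [sdK_eq_sd] at h
  · have h := (hV.isPU₂ hf).valuation_eq_one
    rwa [sdK_eq_sd] at h
  intro 𝔫 h𝔫 hϖ𝔫
  obtain ⟨hstab, hloc⟩ := hP 𝔫 h𝔫 hϖ𝔫
  refine ⟨fun Q hQ => hstab Q hQ, ?_⟩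
  -- local equations, chosen for all places at once
  have hb : ∀ P : Place (Lvl K) (FF (Lvl K) N), ∃ b : FF (Lvl K) N,
      P ∈ centredSet (F := FF (Lvl K) N) (Lvl K) 𝔫 → ResidueTrivial P →
        b ≠ 0 ∧ P.ord b = 1 ∧
          ∀ Q ∈ centredSet (F := FF (Lvl K) N) (Lvl K) 𝔫, Q ≠ P → Q.ord b = 0 := by
    intro P
    by_cases h1 : P ∈ centredSet (F := FF (Lvl K) N) (Lvl K) 𝔫 ∧ ResidueTrivial P
    · obtain ⟨b, hb⟩ := hloc P h1.1 h1.2
      exact ⟨b, fun _ _ => hb⟩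
    · exact ⟨1, fun h2 h3 => absurd ⟨h2, h3⟩ h1⟩
  choose b hb using hb
  refine ⟨S.filter (fun Q => Q ∈ centredSet (F := FF (Lvl K) N) (Lvl K) 𝔫), D, b, ?_, ?_, ?_, ?_, ?_⟩
  · intro P hPC hPS
    have h0 : P.ord f = 0 := by
      by_contra hne
      exact hPS (Finset.mem_filter.mpr ⟨hS P hne, hPC⟩)
    rw [hD]
    simp only [h0, Int.zero_ediv]
  · intro P hP
    obtain ⟨h1, h2⟩ := Finset.mem_filter.mp hP
    exact (hb P h2 (hSrat P h1)).1
  · intro P hP
    obtain ⟨h1, h2⟩ := Finset.mem_filter.mp hP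
    exact (hb P h2 (hSrat P h1)).2.1
  · intro P hP Q hQ hne
    obtain ⟨h1, h2⟩ := Finset.mem_filter.mp hP
    exact (hb P h2 (hSrat P h1)).2.2 Q hQ hne
  · intro Q _
    have h := ord_sd (ordMul_place (K₀ := Lvl K) (F₀ := FF (Lvl K) N))
      (compat_tauPerm (levelFF K hKs N σ)) Q hf
    rw [h, hDmul, hDmul, hDmul]
    ring

end Level

/-! ### The geometric input at good levels -/

/-- **The level data**: for every inertia element there is a number field above which every good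
level carries the vertical data and (Loc-P) on both charts. -/
def LevelPointsAt (N : ℕ) [NeZero N] (q : ℕ) : Prop :=
  ∀ A : ValuationSubring Qbar, A.LiesOverPrime q → ∀ σ ∈ A.inertiaSubgroupIn ℚ,
    ∃ K₀ : IntermediateField ℚ Qbar, FiniteDimensional ℚ K₀ ∧
      ∀ (K : IntermediateField ℚ Qbar) (hK : IsGoodLevel A q K), K₀ ≤ K →
        ∃ (ϖ : ↥(baseRing A K)) (W : Subring (FF (Lvl K) N)) (_ : IsIntegrallyClosed W)
          (_ : IsFractionRing W (FF (Lvl K) N)) (V₁ V₂ : ValuationSubring (FF (Lvl K) N)),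
          VertLevel A K hK.stable N σ ϖ W V₁ V₂ ∧
          LocPChart A K hK.stable N σ ϖ (jF (Lvl K) N) ∧
          LocPChart A K hK.stable N σ ϖ (jF (Lvl K) N)⁻¹

set_option maxHeartbeats 1600000 in
/-- **`LevelGeomAt` from the level data.** -/
theorem levelGeomAt_of_points {N : ℕ} [NeZero N] {q : ℕ} (H : LevelPointsAt N q) :
    LevelGeomAt N q := by
  classical
  intro A hA σ hσ p hp hpq k f hf hdiv
  obtain ⟨K₀, hK₀fin, hK₀⟩ := H A hA σ hσ
  -- the divisor of `f` and a number field of rationality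
  obtain ⟨Dbar, hDbar, -⟩ :=
    (Fermat.Agent.N4F.A.LevelMaps.hasPrincipalDivisors_bar N).exists_divisor f hf
  obtain ⟨K₂, hK₂fin, hK₂⟩ := exists_finiteDimensional_level N ∅ Dbar.support
  haveI := hK₀fin
  haveI := hK₂fin
  refine ⟨K₀ ⊔ K₂, IntermediateField.finiteDimensional_sup K₀ K₂, fun K hK hle fK hfK => ?_⟩
  obtain ⟨ϖ, W, iW1, iW2, V₁, V₂, hV, hPp, hPm⟩ := hK₀ K hK (le_sup_left.trans hle)
  have hrat : ∀ P ∈ Dbar.support, ResidueTrivial (restrictK N K P) :=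
    (hK₂ K (le_sup_right.trans hle)).2
  haveI := hK.dvr
  haveI : IsFractionRing ↥(baseRing A K) (Lvl K) := isFractionRing_trSubring A K
  have hfK0 : fK ≠ 0 := by
    rintro rfl
    rw [map_zero] at hfK
    exact hf hfK.symm
  have hpk : p ^ k ≠ 0 := pow_ne_zero k hp.ne_zero
  -- divisibility at every place of `F_K`
  have hdivK : ∀ Q : Place (Lvl K) (FF (Lvl K) N), ((p ^ k : ℕ) : ℤ) ∣ Q.ord fK := by
    intro Q
    obtain ⟨P, -, hP⟩ := exists_extendsK N K Q
    rw [← hP fK, hfK]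
    exact hdiv P
  -- the zeros and poles of `f_K` are rational
  set S : Finset (Place (Lvl K) (FF (Lvl K) N)) := Dbar.support.image (restrictK N K) with hSdef
  have hS : ∀ Q : Place (Lvl K) (FF (Lvl K) N), Q.ord fK ≠ 0 → Q ∈ S := by
    intro Q hQ
    obtain ⟨P, hext, hP⟩ := exists_extendsK N K Q
    have h1 : P ∈ Dbar.support := by
      rw [Finsupp.mem_support_iff, hDbar P, ← hfK, hP fK]
      exact hQ
    rw [hSdef, Finset.mem_image]
    exact ⟨P, h1, (eq_restrictK_of_extends N K hext).symm⟩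
  have hSrat : ∀ Q ∈ S, ResidueTrivial Q := by
    intro Q hQ
    rw [hSdef, Finset.mem_image] at hQ
    obtain ⟨P, hP, rfl⟩ := hQ
    exact hrat P hP
  -- the chart instances
  have hj : Transcendental (Lvl K) (jF (Lvl K) N) :=
    Fermat.Agent.N4.FFAlgebraic.transcendental_jF (Lvl K) N
  have hjinv : Transcendental (Lvl K) (jF (Lvl K) N)⁻¹ := fun h => hj (by simpa using h.inv)
  haveI : FiniteDimensional (IntermediateField.adjoin (Lvl K) {jF (Lvl K) N}) (FF (Lvl K) N) :=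
    Fermat.Agent.N4.ModPolySetting.finiteDimensional_FF (Lvl K) N
  haveI : FiniteDimensional (IntermediateField.adjoin (Lvl K) {(jF (Lvl K) N)⁻¹}) (FF (Lvl K) N) := by
    rw [Fermat.Agent.N4.Cover.Main.adjoin_inv_eq]
    infer_instance
  haveI : IsNoetherianRing (chartAlg ↥(baseRing A K) (FF (Lvl K) N) {jF (Lvl K) N}) :=
    Fermat.Agent.N4.IntClosure.isNoetherianRing_chartAlg (K := Lvl K) (jF (Lvl K) N) hj
  haveI : IsNoetherianRing (chartAlg ↥(baseRing A K) (FF (Lvl K) N) {(jF (Lvl K) N)⁻¹}) :=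
    Fermat.Agent.N4.IntClosure.isNoetherianRing_chartAlg (K := Lvl K) (jF (Lvl K) N)⁻¹ hjinv
  haveI : IsFractionRing (chartAlg ↥(baseRing A K) (FF (Lvl K) N) {jF (Lvl K) N})
      (FF (Lvl K) N) :=
    Fermat.Agent.N4.Cover.Main.isFractionRing_chartAlg (O := ↥(baseRing A K)) (K₀ := Lvl K)
      (jF (Lvl K) N) hj
  haveI : IsFractionRing (chartAlg ↥(baseRing A K) (FF (Lvl K) N) {(jF (Lvl K) N)⁻¹})
      (FF (Lvl K) N) :=
    Fermat.Agent.N4.Cover.Main.isFractionRing_chartAlg (O := ↥(baseRing A K)) (K₀ := Lvl K)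
      (jF (Lvl K) N)⁻¹ hjinv
  haveI : IsIntegrallyClosed (chartAlg ↥(baseRing A K) (FF (Lvl K) N) {jF (Lvl K) N}) :=
    Fermat.Agent.N4.Cover.Main.isIntegrallyClosed_chartAlg (O := ↥(baseRing A K)) (K₀ := Lvl K)
      (jF (Lvl K) N) hj
  haveI : IsIntegrallyClosed (chartAlg ↥(baseRing A K) (FF (Lvl K) N) {(jF (Lvl K) N)⁻¹}) :=
    Fermat.Agent.N4.Cover.Main.isIntegrallyClosed_chartAlg (O := ↥(baseRing A K)) (K₀ := Lvl K)
      (jF (Lvl K) N)⁻¹ hjinv
  exact ⟨ϖ, W, iW1, iW2, V₁, V₂, hV.irr, hV.twoVal, hV.semiP, hV.semiM,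
    hV.exists_sdK_sub_one hfK0,
    localRoots_sdK hV (jF (Lvl K) N) hV.semiP hPp hfK0 hpk hdivK S hS hSrat,
    localRoots_sdK hV (jF (Lvl K) N)⁻¹ hV.semiM hPm hfK0 hpk hdivK S hS hSrat⟩

/-- `GeomStepAt` from the level data. -/
theorem geomStepAt_of_points {N : ℕ} [NeZero N] {q : ℕ} (hq : q.Prime)
    (H : LevelPointsAt N q) : GeomStepAt N q :=
  geomStepAt_of_levelGeom hq (levelGeomAt_of_points H)

/-- The level data for all `q ∥ N'`. -/
def LevelPointsAll : Prop :=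
  ∀ (N' : ℕ) [NeZero N'] (q : ℕ), q.Prime → q ∣ N' → ¬ q ^ 2 ∣ N' → LevelPointsAt N' q

/-- The same at the levels without elliptic points only. -/
def LevelPoints : Prop :=
  ∀ (N' : ℕ) [NeZero N'] (q : ℕ), q.Prime → q ∣ N' → ¬ q ^ 2 ∣ N' →
    (∃ r : ℕ, r.Prime ∧ r ∣ N' ∧ r ≠ q ∧ r % 12 = 11) → LevelPointsAt N' q

theorem levelPoints_of_all (h : LevelPointsAll) : LevelPoints :=
  fun N' _ q hq hqN hq2 _ => h N' q hq hqN hq2

theorem levelGeom_of_points (h : LevelPoints) : LevelGeom :=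
  fun N' _ q hq hqN hq2 hr => levelGeomAt_of_points (h N' q hq hqN hq2 hr)

/-- **Frozen S34 from the Eichler–Shimura relation on torsion and the level data.** -/
theorem s34_of_es_of_points
    (hES : ∀ (N : ℕ) [NeZero N], Fermat.Agent.N4F.Res.ESOnTorsionAll N) (hG : LevelPoints)
    {𝒪 : Type} [CommRing 𝒪] [IsDomain 𝒪] [IsDiscreteValuationRing 𝒪]
    [IsAdicComplete (IsLocalRing.maximalIdeal 𝒪) 𝒪] [Finite (IsLocalRing.ResidueField 𝒪)]
    [CharZero 𝒪]
    {p : ℕ} (hp : p.Prime) (hp𝒪 : (p : 𝒪) ∈ IsLocalRing.maximalIdeal 𝒪)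
    {N : ℕ} [NeZero N] {S : Finset ℕ} (hpS : p ∈ S) (hNS : ∀ q : ℕ, q.Prime → q ∣ N → q ∈ S)
    {θ : CuspForm.heckeAlgebra N 2 (↑S : Set ℕ) →+* IsLocalRing.ResidueField 𝒪}
    {T : Type} [CommRing T] [IsLocalRing T] [IsNoetherianRing T]
    [IsAdicComplete (IsLocalRing.maximalIdeal T) T] [Algebra 𝒪 T] [IsLocalHom (algebraMap 𝒪 T)]
    [Module.Finite 𝒪 T] [Module.Free 𝒪 T]
    (H : CuspForm.HeckeGaloisRepDatum N (↑S : Set ℕ) 𝒪 θ T)
    (q : ℕ) (hq : q.Prime) (hqp : q ≠ p) (hqN : q ∣ N) (hq2 : ¬ q ^ 2 ∣ N) :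
    H.ρ.IsUnipotentOnInertiaAt q :=
  s34_of_es_of_levelGeom hES (levelGeom_of_points hG) hp hp𝒪 hpS hNS H q hq hqp hqN hq2

end Fermat.Agent.P3G.Assembly.LevelGeomOfPoints
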