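/-
P3-G block (G-A), final instantiation (helper19): **the level data `LevelPointsAt (M q) q` at every good
level, unconditionally**, hence `LevelPointsAll` and the frozen S34 modulo nothing but the
Eichler–Shimura relation on torsion (`N4F/Res/BlocksFinal`).

At a good level `K` (`LevelStep.IsGoodLevel A q K`), `O_K = baseRing A K`, `M` prime to `q`:
* base facts: `GoodBase`, `(∗)`, `(S)` (`N4F/C/LevelStatements`), `(A2)` (`NormReduction.theta_mem_full`),
  `M ∈ O_Kˣ`, `κ` algebraically closed of characteristic `q`;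
* the second vertical valuation `S₂ : FibreTwo.SecondVal` (`FibreTwo.nonempty_secondVal`),
  `W = V₁ ∩ S₂.V` with `TwoVal`/semi-Gauss on both charts (`FibreSatBridge`, helper12),
  `σ_K`-stability and triviality on the residue fields (`GammaGauss`, `GammaV2`, helper28);
* (Loc-P) on both charts (`TwoComponentsFinal.locPRat_fin`, helper13; `TwoComponentsInfFinal.locPRat_inf`)
  through `G/LocPChart` (helper9).
-/
import Mathlib
import Fermat.Agent.P3G.Assembly.LevelGeomOfPoints
import Fermat.Agent.P3G.FibreSatBridge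
import Fermat.Agent.P3G.FibreIdent
import Fermat.Agent.P3G.GammaV2
import Fermat.Agent.P3G.GammaUnits
import Fermat.Agent.P3G.TwoComponentsFinal
import Fermat.Agent.P3G.TwoComponentsInfFinal
import Fermat.Agent.G.LocPChart
import Fermat.Agent.N4F.C.LevelStatements
import Fermat.Agent.N4F.C.ChartReduction
import Fermat.Agent.N4F.E.NormReduction
import Fermat.Agent.N4F.E.GaussResidue

set_option autoImplicit false
set_option linter.unusedSectionVars false
set_option linter.dupNamespace false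
set_option linter.style.haveILetI false

open ModularCurve AlgebraicCurve IntermediateField

noncomputable section

namespace Fermat.Agent.P3G.Assembly.PointsFinal

open Fermat.Agent.N4.Setting Fermat.Agent.N4.Chart Fermat.Agent.N4.S18Glue Fermat.Agent.N4.BigDVR
  Fermat.Agent.P3G.Cover.Lift Fermat.Agent.P3G.Cover.OfValuations Fermat.Agent.P3G.Assembly.PowCover
  Fermat.Agent.P3G.Assembly.StepOfLevel Fermat.Agent.P3G.Assembly.LevelStep
  Fermat.Agent.P3G.Assembly.LevelGeomOfPoints
  Fermat.Agent.P3G.Gamma Fermat.Agent.P3G.GammaAut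
  Fermat.Agent.N4F.C Fermat.Agent.N4F.C.Levels Fermat.Agent.N4F.C.Galois
  Fermat.Agent.N4F.E.GaussDVR

local notation "Qbar" => AlgebraicClosure ℚ
local notation "Γ" => (AlgebraicClosure ℚ ≃ₐ[ℚ] AlgebraicClosure ℚ)

set_option maxHeartbeats 1600000 in
set_option synthInstance.maxHeartbeats 400000 in
/-- **The level data at level `M q`, `q ∤ M`.** -/
theorem levelPointsAt_mul (M q : ℕ) [NeZero M] [Fact q.Prime] (hqM : ¬ q ∣ M) :
    LevelPointsAt (M * q) q := by
  have hq : q.Prime := Fact.out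
  intro A hA σ hσ
  refine ⟨⊥, inferInstance, fun K hK _ => ?_⟩
  haveI := hK.dvr
  haveI : IsFractionRing ↥(baseRing A K) (Lvl K) := isFractionRing_trSubring A K
  haveI : IsAlgClosed (IsLocalRing.ResidueField ↥(baseRing A K)) := hK.algClosed
  have hGB : GoodBase (Lvl K) M (baseRing A K) q := ⟨hq, hqM, inferInstance, hK.not_unit⟩
  haveI : CharP (IsLocalRing.ResidueField ↥(baseRing A K)) q :=
    Fermat.Agent.N4F.E.GaussResidue.charP_residueField (Lvl K) M (baseRing A K) hGB
  haveI : PerfectRing (IsLocalRing.ResidueField ↥(baseRing A K)) q := inferInstance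
  have hstar := LevelStatements.starStatement_lvl hq hA K hGB hK.roots
  have hsmooth := LevelStatements.smoothStatement_lvl hq hA hqM K hGB hK.roots
  have hprime := hstar.1.isPrime
  have hprimeInf := hstar.2.isPrime
  have hred : PGI.RedMem (Lvl K) M (baseRing A K) := fun s hs =>
    ChartReduction.red_mem_full (Lvl K) M (baseRing A K) hGB hstar s hs
  have hA2 := Fermat.Agent.N4F.E.NormReduction.theta_mem_full (Lvl K) M (baseRing A K) hred
  have hN : IsUnit ((M : ℕ) : ↥(baseRing A K)) :=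
    Fermat.Agent.P3G.GammaUnits.isUnit_natCast_baseRing K hq hA hqM
  obtain ⟨S₂⟩ := Fermat.Agent.P3G.FibreTwo.nonempty_secondVal (Lvl K) M q (baseRing A K)
    (Fermat.Agent.P3G.GammaV2.lvlToComplex K) hqM hprime hA2
  obtain ⟨ϖ, hϖ⟩ := IsDiscreteValuationRing.exists_irreducible ↥(baseRing A K)
  have hB := Fermat.Agent.P3G.FibreIdent.betaOut_of_secondVal (Lvl K) M q (baseRing A K) S₂
  have hσD : σ ∈ A.decompositionSubgroup ℚ := mem_decompositionSubgroup_of_mem_inertia hσ
  have hWeq := Fermat.Agent.P3G.FibreSatBridge.W_eq_iInf (Lvl K) M q (baseRing A K)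
    (Fermat.Agent.P3G.GammaV2.lvlToComplex K) hqM hprime hB S₂
  haveI := Fermat.Agent.N4.ModPolySetting.finiteDimensional_FF (Lvl K) (M * q)
  haveI : IsFractionRing ↥(Rfin (Lvl K) (M * q) (baseRing A K)) (FF (Lvl K) (M * q)) :=
    Fermat.Agent.N4.Cover.Main.isFractionRing_chartAlg (O := ↥(baseRing A K)) (K₀ := Lvl K)
      (jF (Lvl K) (M * q)) (Fermat.Agent.N4.FFAlgebraic.transcendental_jF (Lvl K) (M * q))
  have iFR : IsFractionRing ↥(Fermat.Agent.P3G.FibreSatBridge.W (Lvl K) M q (baseRing A K) S₂)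
      (FF (Lvl K) (M * q)) := by
    rw [hWeq]
    exact isFractionRing_iInfSubring (R := ↥(Rfin (Lvl K) (M * q) (baseRing A K))) _
      (Fermat.Agent.P3G.FibreSat.Rfin_le_Vpair (Lvl K) M q (baseRing A K)
        (Fermat.Agent.P3G.GammaV2.lvlToComplex K) hqM hprime hB)
  have iIC : IsIntegrallyClosed
      ↥(Fermat.Agent.P3G.FibreSatBridge.W (Lvl K) M q (baseRing A K) S₂) := by
    rw [hWeq]
    exact isIntegrallyClosed_iInfSubring (R := ↥(Rfin (Lvl K) (M * q) (baseRing A K))) _
      (Fermat.Agent.P3G.FibreSat.Rfin_le_Vpair (Lvl K) M q (baseRing A K)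
        (Fermat.Agent.P3G.GammaV2.lvlToComplex K) hqM hprime hB)
  have hV : VertLevel A K hK.stable (M * q) σ ϖ
      (Fermat.Agent.P3G.FibreSatBridge.W (Lvl K) M q (baseRing A K) S₂)
      (gaussVS (Lvl K) (M * q) (baseRing A K)) S₂.V :=
    ⟨hϖ,
      Fermat.Agent.P3G.FibreSatBridge.twoVal (Lvl K) M q (baseRing A K)
        (Fermat.Agent.P3G.GammaV2.lvlToComplex K) hqM hprime hB S₂ hϖ,
      Fermat.Agent.P3G.FibreSatBridge.semiP (Lvl K) M q (baseRing A K)
        (Fermat.Agent.P3G.GammaV2.lvlToComplex K) hqM hprime hB S₂ hϖ,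
      Fermat.Agent.P3G.FibreSatBridge.semiM (Lvl K) M q (baseRing A K)
        (Fermat.Agent.P3G.GammaV2.lvlToComplex K) hqM hprime hB S₂ hprimeInf hϖ,
      fun x => Fermat.Agent.P3G.GammaGauss.valuation_levelFF_gaussVS K hK.stable (M * q) hσD x,
      fun x => Fermat.Agent.P3G.GammaV2.valuation_levelFF_secondVal K hK.stable M q S₂ hqM hσD x,
      Fermat.Agent.P3G.GammaGauss.trivialOnResidue_gaussVS K hK.stable (M * q) hσ,
      Fermat.Agent.P3G.GammaV2.trivialOnResidue_secondVal K hK.stable M q S₂ hσ⟩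
  exact ⟨ϖ, _, iIC, iFR, _, _, hV,
    Fermat.Agent.G.LocPChartGlue.locPChart_fin A K hK.stable (M * q) hσD hV
      (Fermat.Agent.P3G.TwoComponentsFinal.locPRat_fin (Lvl K) M q (baseRing A K) hN
        (Fermat.Agent.P3G.GammaV2.lvlToComplex K) hqM hprime hsmooth.1 hA2 hϖ),
    Fermat.Agent.G.LocPChartGlue.locPChart_inf A K hK.stable (M * q) hσD hV
      (Fermat.Agent.P3G.TwoComponentsInfFinal.locPRat_inf (Lvl K) M q (baseRing A K) hN
        (Fermat.Agent.P3G.GammaV2.lvlToComplex K) hqM hprime hprimeInf hsmooth.2 hA2 hϖ)⟩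

/-- **The level data at every level `N'` with `q ∥ N'`.** -/
theorem levelPointsAll : LevelPointsAll := by
  intro N' _ q hq hqN hq2
  obtain ⟨M, hM⟩ := hqN
  rw [mul_comm] at hM
  subst hM
  haveI : Fact q.Prime := ⟨hq⟩
  have hM0 : M ≠ 0 := by
    rintro rfl
    exact NeZero.ne (0 * q) (zero_mul q)
  haveI : NeZero M := ⟨hM0⟩
  have hqM : ¬ q ∣ M := by
    rintro ⟨c, rfl⟩
    exact hq2 ⟨c, by ring⟩
  exact levelPointsAt_mul M q hqM

end Fermat.Agent.P3G.Assembly.PointsFinal
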